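import Mathlib

set_option autoImplicit false

namespace Fermat.Agent.Lib.ES

/-- Abstract lattice criterion: if a finitely generated `ℤ`-submodule `Λ` of the dual of `V`
is stable under precomposition with a set of endomorphisms and separates the points of `V`,
then the `ℤ`-algebra generated by these endomorphisms is a finitely generated `ℤ`-module. -/
theorem finite_adjoin_of_lattice {V : Type*} [AddCommGroup V] [Module ℂ V]
    (gens : Set (Module.End ℂ V))
    (Λ : Submodule ℤ (V →ₗ[ℂ] ℂ)) (hfg : Λ.FG)
    (hstab : ∀ T ∈ gens, ∀ l ∈ Λ, l ∘ₗ T ∈ Λ)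
    (hsep : ∀ f : V, (∀ l ∈ Λ, l f = 0) → f = 0) :
    Module.Finite ℤ (Algebra.adjoin ℤ gens) := by
  classical
  have hA : ∀ t ∈ Algebra.adjoin ℤ gens, ∀ l ∈ Λ, l ∘ₗ t ∈ Λ := by
    intro t ht
    induction ht using Algebra.adjoin_induction with
    | mem x hx => exact hstab x hx
    | algebraMap r =>
      intro l hl
      have : l ∘ₗ (algebraMap ℤ (Module.End ℂ V) r) = r • l := by
        ext v
        simp [Algebra.algebraMap_eq_smul_one]
      rw [this]
      exact Λ.smul_mem r hl
    | add x y _ _ hx hy =>
      intro l hl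
      rw [LinearMap.comp_add]
      exact Λ.add_mem (hx l hl) (hy l hl)
    | mul x y _ _ hx hy =>
      intro l hl
      have : l ∘ₗ (x * y) = (l ∘ₗ x) ∘ₗ y := by
        ext v; simp [Module.End.mul_apply]
      rw [this]
      exact hy _ (hx l hl)
  haveI : Module.Finite ℤ Λ := Module.Finite.iff_fg.mpr hfg
  let Φ : (Algebra.adjoin ℤ gens) →ₗ[ℤ] (Λ →ₗ[ℤ] Λ) :=
    { toFun := fun t =>
        { toFun := fun l => ⟨(l : V →ₗ[ℂ] ℂ) ∘ₗ (t : Module.End ℂ V), hA t t.2 l l.2⟩
          map_add' := by
            intro l l'
            ext v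
            simp
          map_smul' := by
            intro r l
            ext v
            simp }
      map_add' := by
        intro t t'
        ext l v
        simp
      map_smul' := by
        intro r t
        ext l v
        simp }
  have hΦ : Function.Injective Φ := by
    rw [← LinearMap.ker_eq_bot, LinearMap.ker_eq_bot']
    intro t ht
    apply Subtype.ext
    ext v
    apply hsep
    intro l hl
    have h1 := congrArg (fun g => ((g ⟨l, hl⟩ : Λ) : V →ₗ[ℂ] ℂ) v) ht
    simpa [Φ] using h1
  exact Module.Finite.of_injective Φ hΦ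

end Fermat.Agent.Lib.ES
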