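import Mathlib

set_option autoImplicit false

namespace Fermat.Agent.Lib.ES

section abstract

variable {G : Type*} [Group G] {V : Type*} [AddCommGroup V] [Module ℂ V]
  {ι : Type*} [Fintype ι] [DecidableEq ι]

/-- The coordinate functionals of a vector valued cocycle. -/
noncomputable def coordFunctional (c : G → V →ₗ[ℂ] (ι → ℂ)) (g : G) (m : ι) : V →ₗ[ℂ] ℂ :=
  (LinearMap.proj m : (ι → ℂ) →ₗ[ℂ] ℂ) ∘ₗ c g

@[simp] theorem coordFunctional_apply (c : G → V →ₗ[ℂ] (ι → ℂ)) (g : G) (m : ι) (f : V) :
    coordFunctional c g m f = c g f m := rfl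

/-- The lattice spanned by all coordinate functionals of the cocycle. -/
noncomputable def cocycleLattice (c : G → V →ₗ[ℂ] (ι → ℂ)) : Submodule ℤ (V →ₗ[ℂ] ℂ) :=
  Submodule.span ℤ (Set.range fun x : G × ι => coordFunctional c x.1 x.2)

theorem coordFunctional_mem (c : G → V →ₗ[ℂ] (ι → ℂ)) (g : G) (m : ι) :
    coordFunctional c g m ∈ cocycleLattice c :=
  Submodule.subset_span ⟨(g, m), rfl⟩

/-- An integral combination of coordinates of `c g` lies in any submodule containing all the
coordinate functionals of `c g`. -/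
theorem intMatrix_comb_mem (c : G → V →ₗ[ℂ] (ι → ℂ)) (L : Submodule ℤ (V →ₗ[ℂ] ℂ)) (g : G)
    (hg : ∀ j, coordFunctional c g j ∈ L) (A : Matrix ι ι ℤ) (m : ι) (l : V →ₗ[ℂ] ℂ)
    (hl : ∀ f, l f = ((A.map (Int.cast : ℤ → ℂ)).mulVec (c g f)) m) : l ∈ L := by
  have : l = ∑ j, (A m j) • coordFunctional c g j := by
    ext f
    rw [hl f]
    simp [Matrix.mulVec, dotProduct, LinearMap.sum_apply]
  rw [this]
  exact L.sum_mem fun j _ => L.smul_mem _ (hg j)

/-- If `G` is finitely generated and `c` satisfies a cocycle rule with integral matrices, the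
cocycle lattice is finitely generated. -/
theorem cocycleLattice_fg [Group.FG G] (c : G → V →ₗ[ℂ] (ι → ℂ)) (ρ : G → Matrix ι ι ℤ)
    (hone : c 1 = 0)
    (hmul : ∀ g h f, c (g * h) f = ((ρ h).map (Int.cast : ℤ → ℂ)).mulVec (c g f) + c h f) :
    (cocycleLattice c).FG := by
  classical
  obtain ⟨S, hS⟩ := Group.fg_iff.mp (inferInstance : Group.FG G)
  obtain ⟨hS, hSfin⟩ := hS
  -- generators and inverses
  set S' : Set G := S ∪ S⁻¹ with hS'
  have hS'fin : S'.Finite := hSfin.union hSfin.inv
  set L : Submodule ℤ (V →ₗ[ℂ] ℂ) :=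
    Submodule.span ℤ ((fun x : G × ι => coordFunctional c x.1 x.2) '' (S' ×ˢ (Set.univ : Set ι)))
    with hL
  have hLfg : L.FG := Submodule.fg_span ((hS'fin.prod Set.finite_univ).image _)
  have hgen : ∀ s ∈ S', ∀ j, coordFunctional c s j ∈ L := fun s hs j =>
    Submodule.subset_span ⟨(s, j), ⟨hs, Set.mem_univ _⟩, rfl⟩
  have key : ∀ g : G, ∀ m, coordFunctional c g m ∈ L := by
    intro g
    have hg : g ∈ Subgroup.closure S := by rw [hS]; trivial
    induction hg using Subgroup.closure_induction_left with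
    | one =>
      intro m
      have : coordFunctional c 1 m = 0 := by
        ext f; simp [hone]
      rw [this]; exact L.zero_mem
    | mul_left x hx y _ ih =>
      intro m
      have h1 : coordFunctional c (x * y) m =
          (coordFunctional c (x * y) m - coordFunctional c y m) + coordFunctional c y m := by abel
      rw [h1]
      refine L.add_mem ?_ (ih m)
      refine intMatrix_comb_mem c L x (hgen x (Or.inl hx)) (ρ y) m _ fun f => ?_
      simp [hmul x y f]
    | inv_mul_cancel x hx y _ ih =>
      intro m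
      have h1 : coordFunctional c (x⁻¹ * y) m =
          (coordFunctional c (x⁻¹ * y) m - coordFunctional c y m) + coordFunctional c y m := by abel
      rw [h1]
      refine L.add_mem ?_ (ih m)
      refine intMatrix_comb_mem c L x⁻¹ (hgen x⁻¹ (Or.inr (by simpa using hx))) (ρ y) m _
        fun f => ?_
      simp [hmul x⁻¹ y f]
  have hle : cocycleLattice c ≤ L := by
    refine Submodule.span_le.mpr ?_
    rintro _ ⟨⟨g, m⟩, rfl⟩
    exact key g m
  have hge : L ≤ cocycleLattice c := by
    refine Submodule.span_le.mpr ?_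
    rintro _ ⟨⟨g, m⟩, _, rfl⟩
    exact coordFunctional_mem c g m
  rw [le_antisymm hle hge]
  exact hLfg

/-- Stability of the cocycle lattice under an operator compatible with the cocycle. -/
theorem cocycleLattice_stable (c : G → V →ₗ[ℂ] (ι → ℂ)) (T : V →ₗ[ℂ] V)
    (hT : ∀ g : G, ∃ (X : Type) (_ : Fintype X) (gx : X → G) (A : X → Matrix ι ι ℤ),
      ∀ f, c g (T f) = ∑ x, ((A x).map (Int.cast : ℤ → ℂ)).mulVec (c (gx x) f)) :
    ∀ l ∈ cocycleLattice c, l ∘ₗ T ∈ cocycleLattice c := by
  classical
  intro l hl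
  induction hl using Submodule.span_induction with
  | mem l hl =>
    obtain ⟨⟨g, m⟩, rfl⟩ := hl
    obtain ⟨X, _, gx, A, hA⟩ := hT g
    have : coordFunctional c g m ∘ₗ T =
        ∑ x, ∑ j, (A x m j) • coordFunctional c (gx x) j := by
      ext f
      simp only [LinearMap.comp_apply, coordFunctional_apply, hA f, Finset.sum_apply,
        LinearMap.sum_apply, LinearMap.smul_apply]
      refine Finset.sum_congr rfl fun x _ => ?_
      simp [Matrix.mulVec, dotProduct]
    rw [this]
    exact Submodule.sum_mem _ fun x _ => Submodule.sum_mem _ fun j _ =>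
      Submodule.smul_mem _ _ (coordFunctional_mem c (gx x) j)
  | zero => simp
  | add x y _ _ hx hy =>
    rw [LinearMap.add_comp]
    exact Submodule.add_mem _ hx hy
  | smul r x _ hx =>
    rw [LinearMap.smul_comp]
    exact Submodule.smul_mem _ r hx

/-- Separation: a vector killed by the cocycle lattice is killed by the cocycle. -/
theorem cocycle_eq_zero_of_forall_mem (c : G → V →ₗ[ℂ] (ι → ℂ)) (f : V)
    (h : ∀ l ∈ cocycleLattice c, l f = 0) (g : G) : c g f = 0 := by
  funext m
  exact h _ (coordFunctional_mem c g m)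

end abstract

end Fermat.Agent.Lib.ES
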