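import Mathlib
import Fermat.Agent.Lib.ES.Abstract
import Fermat.Agent.Lib.ES.Lattice

set_option autoImplicit false

namespace Fermat.Agent.Lib.ES

/-- Abstract Eichler–Shimura finiteness criterion: a set of operators on a complex vector space
`V` generates a finite `ℤ`-algebra as soon as there is an injective "cocycle" map from `V` to
vector valued functions on a finitely generated group `G`, satisfying an integral cocycle rule,
with which the operators are compatible through integral matrices. -/
theorem finite_adjoin_of_cocycle {G : Type*} [Group G] [Group.FG G]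
    {V : Type*} [AddCommGroup V] [Module ℂ V] {ι : Type*} [Fintype ι] [DecidableEq ι]
    (gens : Set (Module.End ℂ V))
    (c : G → V →ₗ[ℂ] (ι → ℂ)) (ρ : G → Matrix ι ι ℤ)
    (hone : c 1 = 0)
    (hmul : ∀ g h f, c (g * h) f = ((ρ h).map (Int.cast : ℤ → ℂ)).mulVec (c g f) + c h f)
    (hinj : ∀ f : V, (∀ g, c g f = 0) → f = 0)
    (hT : ∀ T ∈ gens, ∀ g : G, ∃ (X : Type) (_ : Fintype X) (gx : X → G) (A : X → Matrix ι ι ℤ),
      ∀ f, c g (T f) = ∑ x, ((A x).map (Int.cast : ℤ → ℂ)).mulVec (c (gx x) f)) :
    Module.Finite ℤ (Algebra.adjoin ℤ gens) :=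
  finite_adjoin_of_lattice gens (cocycleLattice c) (cocycleLattice_fg c ρ hone hmul)
    (fun T hT' => cocycleLattice_stable c T (hT T hT'))
    (fun f hf => hinj f (cocycle_eq_zero_of_forall_mem c f hf))

end Fermat.Agent.Lib.ES
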