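import Fermat.Agent.Lib.ES.Eichler
import Fermat.Agent.Lib.Hecke.QCoeff

/-!
# The Eichler–Shimura cocycle of a cusp form on `Gamma0 N`
-/

set_option autoImplicit false

namespace Fermat.Agent.Lib.ES

open Polynomial Complex Filter Topology UpperHalfPlane ModularFormClass CongruenceSubgroup
open scoped MatrixGroups ModularForm

noncomputable section

variable {N : ℕ} {k : ℤ}

/-- The `q`-expansion coefficients of a cusp form on `Gamma0 N`. -/
def cuspCoeff (f : CuspForm (Gamma0 N) k) : ℕ → ℂ := fun n => qCoeff (⇑f) n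

lemma cuspCoeff_add (f g : CuspForm (Gamma0 N) k) : cuspCoeff (f + g) = cuspCoeff f + cuspCoeff g := by
  ext n; exact QCoeff.qCoeff_add f g n

lemma cuspCoeff_smul (c : ℂ) (f : CuspForm (Gamma0 N) k) : cuspCoeff (c • f) = c • cuspCoeff f := by
  ext n; exact QCoeff.qCoeff_smul c f n

lemma cuspCoeff_zero (f : CuspForm (Gamma0 N) k) : cuspCoeff f 0 = 0 :=
  QCoeff.qCoeff_zero f

lemma strictWidthInfty_Gamma0 (N : ℕ) :
    (Subgroup.map (Matrix.SpecialLinearGroup.mapGL ℝ) (Gamma0 N)).strictWidthInfty = 1 := by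
  apply Subgroup.strictWidthInfty_eq_one_of_T_mem
  rw [Gamma0_mem]
  simp [ModularGroup.T]

/-- Polynomial bound for the coefficients of a cusp form (from Hecke's bound). -/
theorem coeffBound_cuspCoeff [NeZero N] (f : CuspForm (Gamma0 N) k) {A : ℕ} (hA : (k : ℝ) / 2 ≤ A) :
    ∃ C : ℝ, CoeffBound (cuspCoeff f) C A := by
  have hO := CuspFormClass.qExpansion_isBigO (Γ := Subgroup.map (Matrix.SpecialLinearGroup.mapGL ℝ)
    (Gamma0 N)) f
  rw [strictWidthInfty_Gamma0] at hO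
  obtain ⟨c, hc0, hc⟩ := hO.exists_pos
  rw [Asymptotics.IsBigOWith, eventually_atTop] at hc
  obtain ⟨n0, hn0⟩ := hc
  refine ⟨c + ∑ n ∈ Finset.range n0, ‖cuspCoeff f n‖, cuspCoeff_zero f, fun n => ?_⟩
  have hS : 0 ≤ ∑ n ∈ Finset.range n0, ‖cuspCoeff f n‖ := Finset.sum_nonneg fun _ _ => norm_nonneg _
  rcases Nat.eq_zero_or_pos n with rfl | hn
  · rw [cuspCoeff_zero, norm_zero]
    positivity
  have hn1 : (1 : ℝ) ≤ (n : ℝ) := by exact_mod_cast hn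
  have hpow : (1 : ℝ) ≤ (n : ℝ) ^ A := one_le_pow₀ hn1
  rcases lt_or_ge n n0 with h | h
  · calc ‖cuspCoeff f n‖ ≤ ∑ m ∈ Finset.range n0, ‖cuspCoeff f m‖ :=
          Finset.single_le_sum (f := fun m => ‖cuspCoeff f m‖) (fun _ _ => norm_nonneg _)
            (Finset.mem_range.mpr h)
      _ ≤ (c + ∑ m ∈ Finset.range n0, ‖cuspCoeff f m‖) * 1 := by linarith
      _ ≤ _ := by gcongr
  · have h1 := hn0 n h
    have h2 : ‖(n : ℝ) ^ ((k : ℝ) / 2)‖ ≤ (n : ℝ) ^ A := by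
      rw [Real.norm_of_nonneg (Real.rpow_nonneg (by positivity) _), ← Real.rpow_natCast]
      exact Real.rpow_le_rpow_of_exponent_le hn1 hA
    calc ‖cuspCoeff f n‖ ≤ c * ‖(n : ℝ) ^ ((k : ℝ) / 2)‖ := h1
      _ ≤ c * (n : ℝ) ^ A := by gcongr
      _ ≤ _ := by gcongr; linarith

/-- The zeroth Eichler integral is the cusp form itself. -/
theorem eichG_zero_eq [NeZero N] (f : CuspForm (Gamma0 N) k) (τ : ℍ) :
    eichG (cuspCoeff f) 0 (τ : ℂ) = f τ := by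
  have h := ModularForm.hasSum_qExpansion (f := f) one_pos
    (CongruenceSubgroup.one_mem_strictPeriods_Gamma0 N) τ
  rw [eichG, ← h.tsum_eq]
  refine tsum_congr fun n => ?_
  simp only [eichTerm, pow_zero, inv_one, mul_one, cuspCoeff, qCoeff, Function.Periodic.qParam]
  congr 1
  rw [← Complex.exp_nat_mul]
  congr 1
  simp
  ring

/-! ### Möbius transformations by elements of `SL(2, ℤ)` -/

lemma mob_coe (γ : SL(2, ℤ)) (τ : ℍ) :
    mob (γ : Matrix (Fin 2) (Fin 2) ℤ) (τ : ℂ) = ((γ • τ : ℍ) : ℂ) := by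
  rw [UpperHalfPlane.coe_specialLinearGroup_apply, mob]
  simp

lemma mobDen_coe (γ : SL(2, ℤ)) (τ : ℍ) :
    mobDen (γ : Matrix (Fin 2) (Fin 2) ℤ) (τ : ℂ) = denom γ τ := by
  rw [ModularGroup.denom_apply, mobDen]

lemma mobDen_coe_ne_zero (γ : SL(2, ℤ)) (τ : ℍ) :
    mobDen (γ : Matrix (Fin 2) (Fin 2) ℤ) (τ : ℂ) ≠ 0 := by
  rw [mobDen_coe]
  exact denom_ne_zero _ _

lemma mob_coe_im_pos (γ : SL(2, ℤ)) (τ : ℍ) :
    0 < (mob (γ : Matrix (Fin 2) (Fin 2) ℤ) (τ : ℂ)).im := by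
  rw [mob_coe]
  exact (γ • τ).im_pos

lemma cuspForm_smul_eq {w : ℕ} (f : CuspForm (Gamma0 N) ((w : ℤ) + 2)) {γ : SL(2, ℤ)}
    (hγ : γ ∈ Gamma0 N) (τ : ℍ) :
    f (γ • τ) = mobDen (γ : Matrix (Fin 2) (Fin 2) ℤ) (τ : ℂ) ^ (w + 2) * f τ := by
  rw [SlashInvariantForm.slash_action_eqn_SL'' f hγ τ, mobDen_coe]
  norm_cast

/-! ### The cocycle -/

variable [NeZero N] {w : ℕ}

lemma exists_coeffBound (f : CuspForm (Gamma0 N) ((w : ℤ) + 2)) :
    ∃ C : ℝ, CoeffBound (cuspCoeff f) C (w + 1) :=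
  coeffBound_cuspCoeff f (by push_cast; linarith)

/-- The function `z ↦ (E_f | γ)(z) - E_f(z)`; it is constant on the upper half plane for
`γ ∈ Gamma0 N`. -/
def cocycleFun (f : CuspForm (Gamma0 N) ((w : ℤ) + 2)) (γ : SL(2, ℤ)) (z : ℂ) : Fin (w + 1) → ℂ :=
  polyAct w (γ : Matrix (Fin 2) (Fin 2) ℤ) (eichE (cuspCoeff f) w (mob (γ : Matrix (Fin 2) (Fin 2) ℤ) z))
    - eichE (cuspCoeff f) w z

lemma hasDerivAt_cocycleFun (f : CuspForm (Gamma0 N) ((w : ℤ) + 2)) {γ : SL(2, ℤ)}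
    (hγ : γ ∈ Gamma0 N) {z : ℂ} (hz : 0 < z.im) : HasDerivAt (cocycleFun f γ) 0 z := by
  obtain ⟨C, hC⟩ := exists_coeffBound f
  set τ : ℍ := ⟨z, hz⟩ with hτ
  have hzτ : z = (τ : ℂ) := rfl
  have h1 := hasDerivAt_polyAct_eichE_mob hC w (γ : Matrix (Fin 2) (Fin 2) ℤ)
    (hzτ ▸ mobDen_coe_ne_zero γ τ) (hzτ ▸ mob_coe_im_pos γ τ)
  have h2 := hasDerivAt_eichE hC w hz
  refine (h1.sub h2).congr_deriv ?_
  have hden : mobDen (γ : Matrix (Fin 2) (Fin 2) ℤ) z ≠ 0 := hzτ ▸ mobDen_coe_ne_zero γ τ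
  rw [hzτ, mob_coe, eichG_zero_eq, eichG_zero_eq, cuspForm_smul_eq f hγ τ, γ.det_coe]
  rw [← hzτ, Int.cast_one, one_pow, mul_one, mul_comm, mul_div_assoc, div_self (pow_ne_zero _ hden),
    mul_one, sub_self]

variable (N w) in
/-- The Eichler–Shimura cocycle `γ ↦ (E_f | γ) - E_f` (a constant polynomial for `γ ∈ Gamma0 N`). -/
def cocycle (γ : SL(2, ℤ)) :
    CuspForm (Gamma0 N) ((w : ℤ) + 2) →ₗ[ℂ] (Fin (w + 1) → ℂ) where
  toFun f := cocycleFun f γ Complex.I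
  map_add' f g := by
    obtain ⟨C, hC⟩ := exists_coeffBound f
    obtain ⟨C', hC'⟩ := exists_coeffBound g
    have h1 : (0 : ℝ) < (Complex.I : ℂ).im := by simp
    have h2 : 0 < (mob (γ : Matrix (Fin 2) (Fin 2) ℤ) Complex.I).im :=
      mob_coe_im_pos γ UpperHalfPlane.I
    simp only [cocycleFun, cuspCoeff_add, eichE_add hC hC' w h1, eichE_add hC hC' w h2, map_add]
    abel
  map_smul' c f := by
    simp only [cocycleFun, cuspCoeff_smul, eichE_smul, map_smul, RingHom.id_apply, smul_sub]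

lemma cocycle_apply (γ : SL(2, ℤ)) (f : CuspForm (Gamma0 N) ((w : ℤ) + 2)) :
    cocycle N w γ f = cocycleFun f γ Complex.I := rfl

/-- Constancy: the cocycle can be computed at any point of the upper half plane. -/
theorem cocycle_eq {γ : SL(2, ℤ)} (hγ : γ ∈ Gamma0 N) (f : CuspForm (Gamma0 N) ((w : ℤ) + 2))
    {z : ℂ} (hz : 0 < z.im) :
    polyAct w (γ : Matrix (Fin 2) (Fin 2) ℤ)
      (eichE (cuspCoeff f) w (mob (γ : Matrix (Fin 2) (Fin 2) ℤ) z)) - eichE (cuspCoeff f) w z =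
      cocycle N w γ f :=
  const_of_hasDerivAt_zero (fun _ hu => hasDerivAt_cocycleFun f hγ hu) hz (by simp)

theorem cocycle_one : cocycle N w 1 = 0 := by
  ext f : 1
  have hmob : mob ((1 : SL(2, ℤ)) : Matrix (Fin 2) (Fin 2) ℤ) Complex.I = Complex.I := by
    simp [mob]
  rw [cocycle_apply, cocycleFun, hmob, Matrix.SpecialLinearGroup.coe_one, polyAct_one, sub_self]
  rfl

/-- The cocycle rule. -/
theorem cocycle_mul {γ h : SL(2, ℤ)} (hγ : γ ∈ Gamma0 N) (hh : h ∈ Gamma0 N)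
    (f : CuspForm (Gamma0 N) ((w : ℤ) + 2)) :
    cocycle N w (γ * h) f =
      polyAct w (h : Matrix (Fin 2) (Fin 2) ℤ) (cocycle N w γ f) + cocycle N w h f := by
  set τ : ℍ := UpperHalfPlane.I
  have hτ : (0 : ℝ) < ((τ : ℍ) : ℂ).im := τ.im_pos
  have hτ' : (0 : ℝ) < (((h • τ : ℍ)) : ℂ).im := (h • τ).im_pos
  rw [← cocycle_eq (mul_mem hγ hh) f hτ, ← cocycle_eq hγ f hτ', ← cocycle_eq hh f hτ,
    mob_coe, mob_coe, mob_coe, Matrix.SpecialLinearGroup.coe_mul, polyAct_mul, mul_smul, map_sub]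
  abel

end

end Fermat.Agent.Lib.ES
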