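import Mathlib

set_option autoImplicit false

/-!
# Coefficient functionals of a family of vector-valued linear maps

Abstract bookkeeping for step 4/5 of the Eichler cocycle argument: if `c γ (T f)` is a finite sum
of integral-matrix images of `c (γ' j) f`, then every coefficient functional of `c γ ∘ T` lies in
the `ℤ`-span of the coefficient functionals of the `c γ'`.
-/

namespace Fermat.Agent.Lib.ES

open Matrix

variable {G V : Type*} [AddCommGroup V] [Module ℂ V] {n : ℕ}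

/-- The set of coefficient functionals `f ↦ (c γ f) i`, `γ ∈ Γ`. -/
def coeffFunctionals (Γ : Set G) (c : G → V →ₗ[ℂ] (Fin n → ℂ)) : Set (V →ₗ[ℂ] ℂ) :=
  {φ | ∃ γ ∈ Γ, ∃ i : Fin n, φ = (LinearMap.proj i : (Fin n → ℂ) →ₗ[ℂ] ℂ) ∘ₗ c γ}

theorem proj_comp_mem_coeffFunctionals {Γ : Set G} (c : G → V →ₗ[ℂ] (Fin n → ℂ)) {γ : G}
    (hγ : γ ∈ Γ) (i : Fin n) :
    (LinearMap.proj i : (Fin n → ℂ) →ₗ[ℂ] ℂ) ∘ₗ c γ ∈ coeffFunctionals Γ c :=
  ⟨γ, hγ, i, rfl⟩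

/-- If `c γ (T f) = ∑ j, A_j (c (γ' j) f)` with integral matrices `A_j` and `γ' j ∈ Γ`, then each
coefficient functional of `c γ ∘ T` is in the `ℤ`-span of the coefficient functionals. -/
theorem proj_comp_comp_mem_span (Γ : Set G) (c : G → V →ₗ[ℂ] (Fin n → ℂ)) (T : V →ₗ[ℂ] V)
    {ι : Type*} [Fintype ι] (A : ι → Matrix (Fin n) (Fin n) ℤ) (γ' : ι → G)
    (hγ' : ∀ j, γ' j ∈ Γ) (γ : G)
    (h : ∀ f, c γ (T f) = ∑ j, ((A j).map (Int.cast : ℤ → ℂ)).mulVec (c (γ' j) f)) (i : Fin n) :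
    (LinearMap.proj i : (Fin n → ℂ) →ₗ[ℂ] ℂ) ∘ₗ c γ ∘ₗ T ∈
      Submodule.span ℤ (coeffFunctionals Γ c) := by
  have key : (LinearMap.proj i : (Fin n → ℂ) →ₗ[ℂ] ℂ) ∘ₗ c γ ∘ₗ T =
      ∑ j, ∑ l, (A j i l) • ((LinearMap.proj l : (Fin n → ℂ) →ₗ[ℂ] ℂ) ∘ₗ c (γ' j)) := by
    ext f
    simp only [LinearMap.coe_comp, Function.comp_apply, LinearMap.coe_proj, Function.eval, h,
      Finset.sum_apply, Matrix.mulVec, dotProduct, Matrix.map_apply, LinearMap.sum_apply,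
      LinearMap.smul_apply, zsmul_eq_mul]
  rw [key]
  refine Submodule.sum_mem _ fun j _ => Submodule.sum_mem _ fun l _ => ?_
  exact Submodule.smul_mem _ _ (Submodule.subset_span (proj_comp_mem_coeffFunctionals c (hγ' j) l))

/-- Stability of the span of coefficient functionals under precomposition with `T`, given the
Hecke-type relation for every `γ ∈ Γ`. -/
theorem comp_mem_span_coeffFunctionals (Γ : Set G) (c : G → V →ₗ[ℂ] (Fin n → ℂ)) (T : V →ₗ[ℂ] V)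
    (hT : ∀ γ ∈ Γ, ∃ (ι : Type) (_ : Fintype ι) (A : ι → Matrix (Fin n) (Fin n) ℤ) (γ' : ι → G),
      (∀ j, γ' j ∈ Γ) ∧
        ∀ f, c γ (T f) = ∑ j, ((A j).map (Int.cast : ℤ → ℂ)).mulVec (c (γ' j) f))
    {φ : V →ₗ[ℂ] ℂ} (hφ : φ ∈ Submodule.span ℤ (coeffFunctionals Γ c)) :
    φ ∘ₗ T ∈ Submodule.span ℤ (coeffFunctionals Γ c) := by
  induction hφ using Submodule.span_induction with
  | mem φ hφ =>
    obtain ⟨γ, hγ, i, rfl⟩ := hφ
    obtain ⟨ι, _, A, γ', hγ', h⟩ := hT γ hγ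
    rw [LinearMap.comp_assoc]
    exact proj_comp_comp_mem_span Γ c T A γ' hγ' γ h i
  | zero => simp
  | add φ ψ _ _ hφ hψ =>
    rw [LinearMap.add_comp]
    exact Submodule.add_mem _ hφ hψ
  | smul a φ _ hφ =>
    have : (a • φ) ∘ₗ T = a • (φ ∘ₗ T) := by
      ext f
      simp
    rw [this]
    exact Submodule.smul_mem _ _ hφ

end Fermat.Agent.Lib.ES
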