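import Mathlib

set_option autoImplicit false

open Complex

namespace Fermat.Agent.Lib.ES

/-- Polynomial growth bound for a coefficient sequence with vanishing constant term. -/
structure CoeffBound (a : ℕ → ℂ) (C : ℝ) (A : ℕ) : Prop where
  zero : a 0 = 0
  le : ∀ n, ‖a n‖ ≤ C * (n : ℝ) ^ A

/-- The `n`-th term of the `s`-fold Eichler integral of the `q`-series `∑ a n q ^ n`. -/
noncomputable def eichTerm (a : ℕ → ℂ) (s : ℕ) (n : ℕ) (z : ℂ) : ℂ :=
  a n * ((2 * (Real.pi : ℂ) * I * n) ^ s)⁻¹ * cexp (2 * (Real.pi : ℂ) * I * n * z)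

/-- The `s`-fold Eichler integral of the `q`-series `∑ a n q ^ n`. -/
noncomputable def eichG (a : ℕ → ℂ) (s : ℕ) (z : ℂ) : ℂ := ∑' n, eichTerm a s n z

theorem CoeffBound.nonneg {a : ℕ → ℂ} {C : ℝ} {A : ℕ} (h : CoeffBound a C A) : 0 ≤ C := by
  have := h.le 1
  simp at this
  exact le_trans (norm_nonneg _) this

theorem norm_cexp_two_pi (n : ℕ) (z : ℂ) :
    ‖cexp (2 * (Real.pi : ℂ) * I * n * z)‖ = Real.exp (-(2 * Real.pi * z.im) * n) := by
  rw [Complex.norm_exp]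
  congr 1
  simp [Complex.mul_re, Complex.mul_im]
  ring

theorem norm_two_pi_I_mul (n : ℕ) : ‖(2 * (Real.pi : ℂ) * I * n)‖ = 2 * Real.pi * n := by
  simp [abs_of_pos Real.pi_pos]

theorem eichTerm_zero_index {a : ℕ → ℂ} (h0 : a 0 = 0) (s : ℕ) (z : ℂ) :
    eichTerm a s 0 z = 0 := by
  simp [eichTerm, h0]

theorem one_le_two_pi_mul {n : ℕ} (hn : 1 ≤ n) : (1 : ℝ) ≤ 2 * Real.pi * n := by
  have h1 : (1 : ℝ) ≤ n := by exact_mod_cast hn
  have h2 : (3 : ℝ) < Real.pi := Real.pi_gt_three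
  nlinarith

/-- Basic term bound, uniform in `s`. -/
theorem norm_eichTerm_le {a : ℕ → ℂ} {C : ℝ} {A : ℕ} (h : CoeffBound a C A) (s n : ℕ) (z : ℂ) :
    ‖eichTerm a s n z‖ ≤ C * (n : ℝ) ^ A * Real.exp (-(2 * Real.pi * z.im) * n) := by
  rcases Nat.eq_zero_or_pos n with rfl | hn
  · rw [eichTerm_zero_index h.zero]
    have := h.le 0
    rw [h.zero, norm_zero] at this
    simp only [norm_zero, Nat.cast_zero, mul_zero, Real.exp_zero, mul_one]
    simpa using this
  · rw [eichTerm, norm_mul, norm_mul, norm_cexp_two_pi, norm_inv, norm_pow, norm_two_pi_I_mul]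
    have h1 : ((2 * Real.pi * n) ^ s)⁻¹ ≤ 1 :=
      inv_le_one_of_one_le₀ (one_le_pow₀ (one_le_two_pi_mul hn))
    have h2 : 0 ≤ ((2 * Real.pi * n) ^ s)⁻¹ := by positivity
    have h3 := h.le n
    have h4 : ‖a n‖ * ((2 * Real.pi * n) ^ s)⁻¹ ≤ C * (n : ℝ) ^ A := by
      calc ‖a n‖ * ((2 * Real.pi * n) ^ s)⁻¹ ≤ ‖a n‖ * 1 :=
            mul_le_mul_of_nonneg_left h1 (norm_nonneg _)
        _ ≤ C * (n : ℝ) ^ A := by simpa using h3
    exact mul_le_mul_of_nonneg_right h4 (Real.exp_pos _).le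

/-- Sharper term bound when `A ≤ s`. -/
theorem norm_eichTerm_le' {a : ℕ → ℂ} {C : ℝ} {A : ℕ} (h : CoeffBound a C A) {s : ℕ}
    (hs : A ≤ s) (n : ℕ) (z : ℂ) :
    ‖eichTerm a s (n + 1) z‖ ≤ C * Real.exp (-(2 * Real.pi * z.im) * (n + 1 : ℕ)) := by
  rw [eichTerm, norm_mul, norm_mul, norm_cexp_two_pi, norm_inv, norm_pow, norm_two_pi_I_mul]
  have hn : (1 : ℝ) ≤ ((n + 1 : ℕ) : ℝ) := by exact_mod_cast Nat.succ_le_succ (Nat.zero_le n)
  have hpos : (0 : ℝ) < ((n + 1 : ℕ) : ℝ) := lt_of_lt_of_le one_pos hn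
  have h3 := h.le (n + 1)
  have hC := h.nonneg
  have h5 : ((n + 1 : ℕ) : ℝ) ^ A ≤ (2 * Real.pi * ((n + 1 : ℕ) : ℝ)) ^ s := by
    calc ((n + 1 : ℕ) : ℝ) ^ A ≤ ((n + 1 : ℕ) : ℝ) ^ s := pow_le_pow_right₀ hn hs
      _ ≤ (2 * Real.pi * ((n + 1 : ℕ) : ℝ)) ^ s := by
        apply pow_le_pow_left₀ hpos.le
        have : (1 : ℝ) ≤ 2 * Real.pi := by
          have := Real.pi_gt_three
          linarith
        nlinarith
  have hpos' : 0 < (2 * Real.pi * ((n + 1 : ℕ) : ℝ)) ^ s := by positivity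
  have h4 : ‖a (n + 1)‖ * ((2 * Real.pi * ((n + 1 : ℕ) : ℝ)) ^ s)⁻¹ ≤ C := by
    rw [← div_eq_mul_inv, div_le_iff₀ hpos']
    calc ‖a (n + 1)‖ ≤ C * ((n + 1 : ℕ) : ℝ) ^ A := h3
      _ ≤ C * (2 * Real.pi * ((n + 1 : ℕ) : ℝ)) ^ s := mul_le_mul_of_nonneg_left h5 hC
  exact mul_le_mul_of_nonneg_right h4 (Real.exp_pos _).le

theorem summable_bound (C : ℝ) (A : ℕ) {y : ℝ} (hy : 0 < y) :
    Summable fun n : ℕ => C * (n : ℝ) ^ A * Real.exp (-(2 * Real.pi * y) * n) := by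
  have := (Real.summable_pow_mul_exp_neg_nat_mul A (r := 2 * Real.pi * y) (by positivity)).mul_left C
  refine this.congr fun n => ?_
  ring

theorem summable_norm_eichTerm {a : ℕ → ℂ} {C : ℝ} {A : ℕ} (h : CoeffBound a C A) (s : ℕ)
    {z : ℂ} (hz : 0 < z.im) : Summable fun n => ‖eichTerm a s n z‖ :=
  Summable.of_nonneg_of_le (fun _ => norm_nonneg _) (fun n => norm_eichTerm_le h s n z)
    (summable_bound C A hz)

theorem summable_eichTerm {a : ℕ → ℂ} {C : ℝ} {A : ℕ} (h : CoeffBound a C A) (s : ℕ)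
    {z : ℂ} (hz : 0 < z.im) : Summable fun n => eichTerm a s n z :=
  (summable_norm_eichTerm h s hz).of_norm

theorem hasDerivAt_eichTerm {a : ℕ → ℂ} (h0 : a 0 = 0) (s n : ℕ) (z : ℂ) :
    HasDerivAt (eichTerm a (s + 1) n) (eichTerm a s n z) z := by
  rcases Nat.eq_zero_or_pos n with rfl | hn
  · have : eichTerm a (s + 1) 0 = fun _ => 0 := by
      funext w; exact eichTerm_zero_index h0 _ _
    rw [this, eichTerm_zero_index h0]
    exact hasDerivAt_const _ _
  · have hne : (2 * (Real.pi : ℂ) * I * n) ≠ 0 := by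
      have : (n : ℂ) ≠ 0 := by exact_mod_cast hn.ne'
      simp [Real.pi_ne_zero, this]
    have h1 : HasDerivAt (fun w : ℂ => cexp (2 * (Real.pi : ℂ) * I * n * w))
        (cexp (2 * (Real.pi : ℂ) * I * n * z) * (2 * (Real.pi : ℂ) * I * n)) z := by
      have := ((hasDerivAt_id z).const_mul (2 * (Real.pi : ℂ) * I * n)).cexp
      simpa using this
    have h2 := h1.const_mul (a n * ((2 * (Real.pi : ℂ) * I * n) ^ (s + 1))⁻¹)
    have heq : a n * ((2 * (Real.pi : ℂ) * I * n) ^ (s + 1))⁻¹ *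
        (cexp (2 * (Real.pi : ℂ) * I * n * z) * (2 * (Real.pi : ℂ) * I * n)) = eichTerm a s n z := by
      rw [eichTerm, pow_succ, mul_inv]
      have hinv : (2 * (Real.pi : ℂ) * I * n)⁻¹ * (2 * (Real.pi : ℂ) * I * n) = 1 :=
        inv_mul_cancel₀ hne
      calc a n * (((2 * (Real.pi : ℂ) * I * n) ^ s)⁻¹ * (2 * (Real.pi : ℂ) * I * n)⁻¹) *
            (cexp (2 * (Real.pi : ℂ) * I * n * z) * (2 * (Real.pi : ℂ) * I * n))
          = a n * ((2 * (Real.pi : ℂ) * I * n) ^ s)⁻¹ * cexp (2 * (Real.pi : ℂ) * I * n * z) *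
            ((2 * (Real.pi : ℂ) * I * n)⁻¹ * (2 * (Real.pi : ℂ) * I * n)) := by ring
        _ = _ := by rw [hinv, mul_one]
    rw [heq] at h2
    exact h2

theorem hasDerivAt_eichG {a : ℕ → ℂ} {C : ℝ} {A : ℕ} (h : CoeffBound a C A) (s : ℕ)
    {z : ℂ} (hz : 0 < z.im) : HasDerivAt (eichG a (s + 1)) (eichG a s z) z := by
  set δ := z.im / 2 with hδ
  have hδ0 : 0 < δ := by positivity
  have hopen : IsOpen {w : ℂ | δ < w.im} := isOpen_lt continuous_const Complex.continuous_im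
  have hconv : Convex ℝ {w : ℂ | δ < w.im} := by
    have : {w : ℂ | δ < w.im} = Complex.imCLM ⁻¹' (Set.Ioi δ) := by ext; simp
    rw [this]
    exact (convex_Ioi δ).linear_preimage Complex.imCLM.toLinearMap
  have hz' : z ∈ {w : ℂ | δ < w.im} := by
    show δ < z.im
    rw [hδ]; linarith
  have := hasDerivAt_tsum_of_isPreconnected (summable_bound C A hδ0) hopen
    hconv.isPreconnected
    (g := fun n w => eichTerm a (s + 1) n w) (g' := fun n w => eichTerm a s n w)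
    (fun n w _ => hasDerivAt_eichTerm h.zero s n w)
    (fun n w hw => by
      refine (norm_eichTerm_le h s n w).trans ?_
      have hC := h.nonneg
      have hw' : δ < w.im := hw
      have : Real.exp (-(2 * Real.pi * w.im) * n) ≤ Real.exp (-(2 * Real.pi * δ) * n) := by
        apply Real.exp_le_exp.mpr
        have hn : (0 : ℝ) ≤ n := Nat.cast_nonneg n
        have hpi := Real.pi_pos
        have h3 : 0 ≤ 2 * Real.pi * n * (w.im - δ) :=
          mul_nonneg (by positivity) (sub_nonneg.mpr hw'.le)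
        nlinarith [h3]
      exact mul_le_mul_of_nonneg_left this (by positivity))
    hz' (summable_eichTerm h (s + 1) hz) hz'
  exact this

theorem norm_eichG_le_tsum {a : ℕ → ℂ} {C : ℝ} {A : ℕ} (h : CoeffBound a C A) (s : ℕ)
    {z : ℂ} (hz : 0 < z.im) :
    ‖eichG a s z‖ ≤ ∑' n : ℕ, C * (n : ℝ) ^ A * Real.exp (-(2 * Real.pi * z.im) * n) := by
  refine (norm_tsum_le_tsum_norm (summable_norm_eichTerm h s hz)).trans ?_
  exact (summable_norm_eichTerm h s hz).tsum_le_tsum (fun n => norm_eichTerm_le h s n z)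
    (summable_bound C A hz)

/-- Exponential decay of the Eichler integrals for `1 ≤ Im z`. -/
theorem norm_eichG_le_exp {a : ℕ → ℂ} {C : ℝ} {A : ℕ} (h : CoeffBound a C A) :
    ∃ C' : ℝ, 0 ≤ C' ∧ ∀ (s : ℕ) (z : ℂ), 1 ≤ z.im →
      ‖eichG a s z‖ ≤ C' * Real.exp (-(2 * Real.pi) * z.im) := by
  have hC := h.nonneg
  have hsum1 := summable_bound C A one_pos
  refine ⟨(∑' n : ℕ, C * (n : ℝ) ^ A * Real.exp (-(2 * Real.pi * 1) * n)) * Real.exp (2 * Real.pi),
    mul_nonneg (tsum_nonneg fun n => by positivity) (Real.exp_pos _).le, fun s z hz => ?_⟩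
  have hz0 : 0 < z.im := lt_of_lt_of_le one_pos hz
  -- termwise comparison for the actual terms
  have hterm : ∀ n : ℕ, ‖eichTerm a s n z‖ ≤
      (C * (n : ℝ) ^ A * Real.exp (-(2 * Real.pi * 1) * n)) *
        (Real.exp (2 * Real.pi) * Real.exp (-(2 * Real.pi) * z.im)) := by
    intro n
    rcases Nat.eq_zero_or_pos n with rfl | hn
    · rw [eichTerm_zero_index h.zero, norm_zero]
      have := h.le 0
      rw [h.zero, norm_zero] at this
      have h0 : 0 ≤ C * ((0 : ℕ) : ℝ) ^ A := this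
      positivity
    · refine (norm_eichTerm_le h s n z).trans ?_
      have hexp : Real.exp (-(2 * Real.pi * z.im) * n) ≤ Real.exp (-(2 * Real.pi * 1) * n) *
          (Real.exp (2 * Real.pi) * Real.exp (-(2 * Real.pi) * z.im)) := by
        rw [← Real.exp_add, ← Real.exp_add]
        apply Real.exp_le_exp.mpr
        have hn1 : (1 : ℝ) ≤ n := by exact_mod_cast hn
        have hpi := Real.pi_pos
        have h3 : 0 ≤ 2 * Real.pi * (n - 1) * (z.im - 1) :=
          mul_nonneg (mul_nonneg (by positivity) (sub_nonneg.mpr hn1)) (sub_nonneg.mpr hz)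
        nlinarith [h3]
      calc C * (n : ℝ) ^ A * Real.exp (-(2 * Real.pi * z.im) * n)
          ≤ C * (n : ℝ) ^ A * (Real.exp (-(2 * Real.pi * 1) * n) *
            (Real.exp (2 * Real.pi) * Real.exp (-(2 * Real.pi) * z.im))) :=
            mul_le_mul_of_nonneg_left hexp (by positivity)
        _ = _ := by ring
  have hsum2 : Summable fun n : ℕ => (C * (n : ℝ) ^ A * Real.exp (-(2 * Real.pi * 1) * n)) *
        (Real.exp (2 * Real.pi) * Real.exp (-(2 * Real.pi) * z.im)) := hsum1.mul_right _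
  calc ‖eichG a s z‖ ≤ ∑' n, ‖eichTerm a s n z‖ :=
        norm_tsum_le_tsum_norm (summable_norm_eichTerm h s hz0)
    _ ≤ ∑' n : ℕ, (C * (n : ℝ) ^ A * Real.exp (-(2 * Real.pi * 1) * n)) *
        (Real.exp (2 * Real.pi) * Real.exp (-(2 * Real.pi) * z.im)) :=
        (summable_norm_eichTerm h s hz0).tsum_le_tsum hterm hsum2
    _ = _ := by rw [tsum_mul_right]; ring

/-- Growth of the deep Eichler integral near the real axis: `O(1 / Im z)`. -/
theorem norm_eichG_le_inv {a : ℕ → ℂ} {C : ℝ} {A : ℕ} (h : CoeffBound a C A) {s : ℕ}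
    (hs : A ≤ s) {z : ℂ} (hz : 0 < z.im) :
    ‖eichG a s z‖ ≤ C / (2 * Real.pi * z.im) := by
  have hC := h.nonneg
  set r := Real.exp (-(2 * Real.pi * z.im)) with hr
  have hr0 : 0 < r := Real.exp_pos _
  have hr1 : r < 1 := by
    rw [hr, Real.exp_lt_one_iff]
    have := Real.pi_pos
    nlinarith
  have hsn := summable_norm_eichTerm h s hz
  have hpow : ∀ n : ℕ, Real.exp (-(2 * Real.pi * z.im) * (n + 1 : ℕ)) = r ^ (n + 1) := by
    intro n
    rw [hr, ← Real.exp_nat_mul]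
    congr 1
    ring
  have hgs : Summable fun n : ℕ => C * r ^ (n + 1) := by
    have := (summable_geometric_of_lt_one hr0.le hr1).mul_left (C * r)
    refine this.congr fun n => ?_
    rw [pow_succ]; ring
  have hgsum : ∑' n : ℕ, C * r ^ (n + 1) = C * (r / (1 - r)) := by
    have h1 : ∑' n : ℕ, C * r ^ (n + 1) = ∑' n : ℕ, (C * r) * r ^ n := by
      congr 1; funext n; rw [pow_succ]; ring
    rw [h1, tsum_mul_left, tsum_geometric_of_lt_one hr0.le hr1]
    ring
  have h1 : ‖eichG a s z‖ ≤ ∑' n, ‖eichTerm a s n z‖ := norm_tsum_le_tsum_norm hsn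
  have h2 : ∑' n, ‖eichTerm a s n z‖ = ‖eichTerm a s 0 z‖ + ∑' n, ‖eichTerm a s (n + 1) z‖ :=
    hsn.tsum_eq_zero_add
  have h3 : ∑' n, ‖eichTerm a s (n + 1) z‖ ≤ ∑' n : ℕ, C * r ^ (n + 1) := by
    refine ((summable_nat_add_iff 1).mpr hsn).tsum_le_tsum (fun n => ?_) hgs
    rw [← hpow]
    exact norm_eichTerm_le' h hs n z
  have h4 : r / (1 - r) ≤ 1 / (2 * Real.pi * z.im) := by
    have ht : 0 < 2 * Real.pi * z.im := by have := Real.pi_pos; positivity
    have h1r : 0 < 1 - r := by linarith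
    rw [div_le_div_iff₀ h1r ht]
    -- r * t ≤ 1 - r, i.e. r * (1 + t) ≤ 1, from 1 + t ≤ exp t
    have hexp : 1 + 2 * Real.pi * z.im ≤ Real.exp (2 * Real.pi * z.im) := by
      have := Real.add_one_le_exp (2 * Real.pi * z.im)
      linarith
    have hrexp : r * Real.exp (2 * Real.pi * z.im) = 1 := by
      rw [hr, ← Real.exp_add]; simp
    nlinarith [mul_le_mul_of_nonneg_left hexp hr0.le]
  rw [eichTerm_zero_index h.zero, norm_zero, zero_add] at h2
  calc ‖eichG a s z‖ ≤ ∑' n : ℕ, C * r ^ (n + 1) := by rw [h2] at h1; exact h1.trans h3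
    _ = C * (r / (1 - r)) := hgsum
    _ ≤ C * (1 / (2 * Real.pi * z.im)) := mul_le_mul_of_nonneg_left h4 hC
    _ = C / (2 * Real.pi * z.im) := by ring

end Fermat.Agent.Lib.ES
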