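import Fermat.Agent.Lib.ES.PolyAction
import Fermat.Agent.Lib.ES.QSeries

/-!
# The Eichler integral of a `q`-series

For a coefficient sequence `a` (polynomially bounded, `a 0 = 0`) with `q`-series
`f(z) = ∑ a n q ^ n` we define the polynomial valued function
`eichE a w z = "∫_z^{i∞} f(u) (X - u) ^ w du"`, as an explicit combination of the iterated
integrals `eichG a s`. Its derivative is `- f(z) (X - z) ^ w` and it decays along vertical lines.
-/

set_option autoImplicit false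

namespace Fermat.Agent.Lib.ES

open Polynomial Complex Filter Topology

noncomputable section

/-- The coefficient vector of `(X - z) ^ n` (truncated at degree `w`). -/
def powVec (w n : ℕ) (z : ℂ) : Fin (w + 1) → ℂ := fun j => (-z) ^ (n - j) * (n.choose j : ℂ)

lemma powVec_eq_ofPoly (w n : ℕ) (z : ℂ) : powVec w n z = ofPoly w ((X - C z) ^ n) := by
  ext j
  rw [ofPoly_apply, sub_eq_add_neg, ← C_neg, coeff_X_add_C_pow, powVec]

lemma nat_sub_mul_choose (n j : ℕ) : (n - j) * n.choose j = n * (n - 1).choose j := by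
  cases n with
  | zero => simp
  | succ n =>
    have := Nat.choose_mul_succ_eq n j
    simp only [Nat.add_sub_cancel]
    linarith

lemma hasDerivAt_powVec (w n : ℕ) (z : ℂ) :
    HasDerivAt (powVec w n) (-(n : ℂ) • powVec w (n - 1) z) z := by
  rw [hasDerivAt_pi]
  intro j
  have h1 : HasDerivAt (fun z : ℂ => (-z) ^ (n - j) * (n.choose j : ℂ))
      (((n - j : ℕ) : ℂ) * (-z) ^ (n - j - 1) * (-1) * (n.choose j : ℂ)) z :=
    (((hasDerivAt_id z).neg).pow (n - j)).mul_const _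
  have h2 : (((n - j : ℕ) : ℂ) * (-z) ^ (n - j - 1) * (-1) * (n.choose j : ℂ)) =
      (-(n : ℂ) • powVec w (n - 1) z) j := by
    have e : (((n - j : ℕ) : ℂ)) * (n.choose j : ℂ) = (n : ℂ) * ((n - 1).choose j : ℂ) := by
      exact_mod_cast congrArg (Nat.cast (R := ℂ)) (nat_sub_mul_choose n j)
    simp only [Pi.smul_apply, powVec, smul_eq_mul, Nat.sub_right_comm n j 1]
    linear_combination (-(-z) ^ (n - 1 - j)) * e
  rw [← h2]
  exact h1

/-- The Eichler integral `"∫_z^{i∞} f(u) (X - u) ^ w du"` of the `q`-series with coefficients `a`,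
as a coefficient vector of a polynomial of degree `≤ w`. -/
def eichE (a : ℕ → ℂ) (w : ℕ) (z : ℂ) : Fin (w + 1) → ℂ :=
  -∑ s ∈ Finset.range (w + 1), ((w.descFactorial s : ℂ) * eichG a (s + 1) z) • powVec w (w - s) z

theorem hasDerivAt_eichE {a : ℕ → ℂ} {C : ℝ} {A : ℕ} (h : CoeffBound a C A) (w : ℕ) {z : ℂ}
    (hz : 0 < z.im) : HasDerivAt (eichE a w) (-(eichG a 0 z) • powVec w w z) z := by
  have hterm : ∀ s ∈ Finset.range (w + 1),
      HasDerivAt (fun z => ((w.descFactorial s : ℂ) * eichG a (s + 1) z) • powVec w (w - s) z)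
        (((w.descFactorial s : ℂ) * eichG a (s + 1) z) • (-((w - s : ℕ) : ℂ) • powVec w (w - s - 1) z)
          + ((w.descFactorial s : ℂ) * eichG a s z) • powVec w (w - s) z) z := fun s _ =>
    ((hasDerivAt_eichG h s hz).const_mul _).smul (hasDerivAt_powVec w (w - s) z)
  have hsum := (HasDerivAt.fun_sum hterm).neg
  have key : -(∑ s ∈ Finset.range (w + 1),
      (((w.descFactorial s : ℂ) * eichG a (s + 1) z) • (-((w - s : ℕ) : ℂ) • powVec w (w - s - 1) z)
          + ((w.descFactorial s : ℂ) * eichG a s z) • powVec w (w - s) z)) =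
      -(eichG a 0 z) • powVec w w z := by
    rw [Finset.sum_add_distrib, Finset.sum_range_succ' (fun s =>
      ((w.descFactorial s : ℂ) * eichG a s z) • powVec w (w - s) z), Finset.sum_range_succ]
    have h0 : ((w.descFactorial w : ℂ) * eichG a (w + 1) z) •
        (-((w - w : ℕ) : ℂ) • powVec w (w - w - 1) z) = 0 := by simp
    have hs : ∀ s ∈ Finset.range w,
        ((w.descFactorial s : ℂ) * eichG a (s + 1) z) • (-((w - s : ℕ) : ℂ) • powVec w (w - s - 1) z)
        + ((w.descFactorial (s + 1) : ℂ) * eichG a (s + 1) z) • powVec w (w - (s + 1)) z = 0 := by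
      intro s _
      rw [Nat.descFactorial_succ, Nat.cast_mul, smul_smul, Nat.sub_add_eq, ← add_smul]
      convert zero_smul ℂ _ using 2
      ring
    rw [h0, add_zero, ← add_assoc, ← Finset.sum_add_distrib, Finset.sum_eq_zero hs, zero_add]
    simp
  rw [← key]
  exact hsum

lemma isBigO_eichG_vertical {a : ℕ → ℂ} {C : ℝ} {A : ℕ} (h : CoeffBound a C A) (s : ℕ) (x : ℝ) :
    (fun y : ℝ => eichG a s ((x : ℂ) + (y : ℂ) * I)) =O[atTop]
      fun y : ℝ => Real.exp (-(2 * Real.pi) * y) := by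
  obtain ⟨C', _, hC'⟩ := norm_eichG_le_exp h
  refine Asymptotics.IsBigO.of_bound C' ?_
  filter_upwards [eventually_ge_atTop (1 : ℝ)] with y hy
  have him : ((x : ℂ) + (y : ℂ) * I).im = y := by simp
  have := hC' s ((x : ℂ) + (y : ℂ) * I) (by rw [him]; exact hy)
  rw [him] at this
  rwa [Real.norm_of_nonneg (Real.exp_pos _).le]

lemma isBigO_vertical_pow (x : ℝ) (m : ℕ) :
    (fun y : ℝ => (-((x : ℂ) + (y : ℂ) * I)) ^ m) =O[atTop] fun y : ℝ => y ^ m := by
  refine Asymptotics.IsBigO.pow ?_ m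
  refine Asymptotics.IsBigO.of_bound 2 ?_
  filter_upwards [eventually_ge_atTop |x|, eventually_ge_atTop (0 : ℝ)] with y hy hy0
  rw [norm_neg, Real.norm_of_nonneg hy0]
  calc ‖(x : ℂ) + (y : ℂ) * I‖ ≤ ‖(x : ℂ)‖ + ‖(y : ℂ) * I‖ := norm_add_le _ _
    _ = |x| + |y| := by simp
    _ ≤ 2 * y := by rw [abs_of_nonneg hy0]; linarith

/-- The Eichler integral decays along every vertical line. -/
theorem tendsto_eichE_vertical {a : ℕ → ℂ} {C : ℝ} {A : ℕ} (h : CoeffBound a C A) (w : ℕ)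
    (x : ℝ) : Tendsto (fun y : ℝ => eichE a w ((x : ℂ) + (y : ℂ) * I)) atTop (𝓝 0) := by
  rw [tendsto_pi_nhds]
  intro j
  simp only [eichE, Pi.neg_apply, Finset.sum_apply, Pi.smul_apply, powVec, smul_eq_mul,
    Pi.zero_apply]
  rw [← neg_zero]
  refine Tendsto.neg ?_
  rw [← Finset.sum_const_zero (s := Finset.range (w + 1))]
  refine tendsto_finsetSum _ fun s _ => ?_
  have h1 := ((isBigO_eichG_vertical h (s + 1) x).mul
    (isBigO_vertical_pow x (w - s - j))).const_mul_left ((w.descFactorial s : ℂ) *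
      ((w - s).choose j : ℂ))
  have h2 : Tendsto (fun y : ℝ => Real.exp (-(2 * Real.pi) * y) * y ^ (w - s - j)) atTop (𝓝 0) := by
    have := tendsto_rpow_mul_exp_neg_mul_atTop_nhds_zero ((w - s - j : ℕ) : ℝ) (2 * Real.pi)
      Real.two_pi_pos
    refine this.congr fun y => ?_
    rw [Real.rpow_natCast, mul_comm, neg_mul]
  refine (h1.trans_tendsto h2).congr fun y => ?_
  ring

/-! ### Constancy and uniqueness on the upper half plane -/

lemma isOpen_upperHalf : IsOpen {z : ℂ | 0 < z.im} :=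
  isOpen_lt continuous_const Complex.continuous_im

lemma isPreconnected_upperHalf : IsPreconnected {z : ℂ | 0 < z.im} := by
  have : {z : ℂ | 0 < z.im} = Complex.imCLM ⁻¹' (Set.Ioi 0) := by ext; simp
  rw [this]
  exact ((convex_Ioi (0 : ℝ)).linear_preimage Complex.imCLM.toLinearMap).isPreconnected

theorem const_of_hasDerivAt_zero {E : Type*} [NormedAddCommGroup E] [NormedSpace ℂ E] {Φ : ℂ → E}
    (h : ∀ z : ℂ, 0 < z.im → HasDerivAt Φ 0 z) {z z' : ℂ} (hz : 0 < z.im) (hz' : 0 < z'.im) :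
    Φ z = Φ z' := by
  refine isOpen_upperHalf.is_const_of_deriv_eq_zero isPreconnected_upperHalf
    (fun u hu => (h u hu).differentiableAt.differentiableWithinAt) (fun u hu => ?_) hz hz'
  exact (h u hu).deriv

theorem eq_zero_of_hasDerivAt_zero_of_tendsto {E : Type*} [NormedAddCommGroup E] [NormedSpace ℂ E]
    {Φ : ℂ → E} (h : ∀ z : ℂ, 0 < z.im → HasDerivAt Φ 0 z)
    (hlim : Tendsto (fun y : ℝ => Φ ((y : ℂ) * I)) atTop (𝓝 0)) {z : ℂ} (hz : 0 < z.im) :
    Φ z = 0 := by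
  have hconst : ∀ᶠ y : ℝ in atTop, Φ ((y : ℂ) * I) = Φ z := by
    filter_upwards [eventually_gt_atTop (0 : ℝ)] with y hy
    exact const_of_hasDerivAt_zero h (by simpa using hy) hz
  exact tendsto_nhds_unique (tendsto_const_nhds.congr' (hconst.mono fun y hy => hy.symm)) hlim

/-! ### Möbius transformations -/

/-- The Möbius transformation attached to an integral matrix. -/
def mob (α : Matrix (Fin 2) (Fin 2) ℤ) (z : ℂ) : ℂ :=
  ((α 0 0 : ℂ) * z + (α 0 1 : ℂ)) / ((α 1 0 : ℂ) * z + (α 1 1 : ℂ))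

/-- The denominator `c z + d`. -/
def mobDen (α : Matrix (Fin 2) (Fin 2) ℤ) (z : ℂ) : ℂ := (α 1 0 : ℂ) * z + (α 1 1 : ℂ)

lemma mob_def (α : Matrix (Fin 2) (Fin 2) ℤ) (z : ℂ) :
    mob α z = ((α 0 0 : ℂ) * z + (α 0 1 : ℂ)) / mobDen α z := rfl

lemma det_cast (α : Matrix (Fin 2) (Fin 2) ℤ) :
    ((α.det : ℤ) : ℂ) = (α 0 0 : ℂ) * (α 1 1 : ℂ) - (α 0 1 : ℂ) * (α 1 0 : ℂ) := by
  rw [Matrix.det_fin_two]; push_cast; ring

lemma hasDerivAt_mob (α : Matrix (Fin 2) (Fin 2) ℤ) {z : ℂ} (hz : mobDen α z ≠ 0) :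
    HasDerivAt (mob α) ((α.det : ℂ) / mobDen α z ^ 2) z := by
  have h1 : HasDerivAt (fun z : ℂ => (α 0 0 : ℂ) * z + (α 0 1 : ℂ)) (α 0 0 : ℂ) z := by
    simpa using ((hasDerivAt_id z).const_mul (α 0 0 : ℂ)).add_const (α 0 1 : ℂ)
  have h2 : HasDerivAt (mobDen α) (α 1 0 : ℂ) z := by
    have : HasDerivAt (fun z : ℂ => (α 1 0 : ℂ) * z + (α 1 1 : ℂ)) (α 1 0 : ℂ) z := by
      simpa using ((hasDerivAt_id z).const_mul (α 1 0 : ℂ)).add_const (α 1 1 : ℂ)
    exact this
  have h3 := h1.fun_div h2 hz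
  refine h3.congr_deriv ?_
  rw [det_cast, mobDen]
  ring

lemma polyAct_powVec_mob (w : ℕ) (α : Matrix (Fin 2) (Fin 2) ℤ) {z : ℂ} (hz : mobDen α z ≠ 0) :
    polyAct w α (powVec w w (mob α z)) = ((α.det : ℂ) / mobDen α z) ^ w • powVec w w z := by
  have e1 : ((X : ℂ[X]) - C (mob α z)) = C 1 * X + C (-(mob α z)) := by
    rw [C_1, one_mul, C_neg, sub_eq_add_neg]
  rw [powVec_eq_ofPoly, powVec_eq_ofPoly, e1, polyAct_def, polyActR_ofPoly_linear_pow]
  have e2 : (C 1 * linForm (α.map (Int.castRingHom ℂ)) 0 +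
      C (-(mob α z)) * linForm (α.map (Int.castRingHom ℂ)) 1 : ℂ[X]) =
      C ((α.det : ℂ) / mobDen α z) * (X - C z) := by
    have ha : (α 0 0 : ℂ) - mob α z * (α 1 0 : ℂ) = (α.det : ℂ) / mobDen α z := by
      rw [mob_def, det_cast]
      field_simp
      rw [mobDen]; ring
    have hb : (α 0 1 : ℂ) - mob α z * (α 1 1 : ℂ) = -((α.det : ℂ) / mobDen α z * z) := by
      rw [mob_def, det_cast]
      field_simp
      rw [mobDen]; ring
    have e3 : (C 1 * linForm (α.map (Int.castRingHom ℂ)) 0 +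
        C (-(mob α z)) * linForm (α.map (Int.castRingHom ℂ)) 1 : ℂ[X]) =
        C ((α 0 0 : ℂ) - mob α z * (α 1 0 : ℂ)) * X + C ((α 0 1 : ℂ) - mob α z * (α 1 1 : ℂ)) := by
      simp only [linForm, Matrix.map_apply, eq_intCast, C_1, one_mul, C_neg, C_sub, C_mul]
      ring
    rw [e3, ha, hb, C_neg, C_mul]
    ring
  rw [e2, mul_pow, ← C_pow, ← smul_eq_C_mul, map_smul]

/-- The derivative of the transformed Eichler integral `(E | α)(z) = polyAct α (E (α z))`. -/
theorem hasDerivAt_polyAct_eichE_mob {a : ℕ → ℂ} {C : ℝ} {A : ℕ} (h : CoeffBound a C A) (w : ℕ)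
    (α : Matrix (Fin 2) (Fin 2) ℤ) {z : ℂ} (hz : mobDen α z ≠ 0) (him : 0 < (mob α z).im) :
    HasDerivAt (fun z => polyAct w α (eichE a w (mob α z)))
      (-(eichG a 0 (mob α z) * (α.det : ℂ) ^ (w + 1) / mobDen α z ^ (w + 2)) • powVec w w z) z := by
  have h1 := (hasDerivAt_eichE h w him).scomp z (hasDerivAt_mob α hz)
  have h2 := (LinearMap.toContinuousLinearMap (polyAct w α)).hasFDerivAt.comp_hasDerivAt z h1
  refine h2.congr_deriv ?_
  simp only [LinearMap.coe_toContinuousLinearMap', map_smul, polyAct_powVec_mob w α hz, smul_smul]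
  congr 1
  rw [div_pow, pow_succ (α.det : ℂ) w, pow_add (mobDen α z) w 2]
  field_simp

/-! ### Evaluation of the polynomials -/

lemma eval_toPoly_polyAct (w : ℕ) (α : Matrix (Fin 2) (Fin 2) ℤ) (v : Fin (w + 1) → ℂ) {x : ℂ}
    (hx : mobDen α x ≠ 0) :
    (toPoly w (polyAct w α v)).eval x = mobDen α x ^ w * (toPoly w v).eval (mob α x) := by
  rw [polyAct_def, toPoly_polyActR, toPoly_apply, eval_finsetSum, eval_finsetSum, Finset.mul_sum]
  refine Finset.sum_congr rfl fun m _ => ?_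
  have hm : (m : ℕ) ≤ w := Nat.lt_succ_iff.mp m.2
  have hw : mobDen α x ^ w = mobDen α x ^ (m : ℕ) * mobDen α x ^ (w - m) := by
    rw [← pow_add, Nat.add_sub_cancel' hm]
  simp only [actPoly, linForm, Matrix.map_apply, eq_intCast, eval_mul, eval_C, eval_pow, eval_add,
    eval_X]
  rw [hw, mob_def, div_pow]
  have hne : mobDen α x ^ (m : ℕ) ≠ 0 := pow_ne_zero _ hx
  field_simp
  rw [mobDen]
  ring

lemma toPoly_powVec (w : ℕ) {n : ℕ} (hn : n ≤ w) (z : ℂ) :
    toPoly w (powVec w n z) = (X - C z) ^ n := by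
  rw [powVec_eq_ofPoly, toPoly_ofPoly]
  refine (natDegree_pow_le_of_le n (natDegree_X_sub_C_le z)).trans ?_
  simpa using hn

/-- On the diagonal `X = z` the Eichler integral is the deepest iterated integral. -/
lemma eval_toPoly_eichE (a : ℕ → ℂ) (w : ℕ) (z : ℂ) :
    (toPoly w (eichE a w z)).eval z = -((w.factorial : ℂ) * eichG a (w + 1) z) := by
  rw [eichE, map_neg, map_sum, eval_neg, eval_finsetSum, Finset.sum_range_succ,
    Finset.sum_eq_zero]
  · simp [toPoly_powVec, Nat.descFactorial_self]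
  · intro s hs
    have hs' : s < w := Finset.mem_range.mp hs
    rw [map_smul, toPoly_powVec w (Nat.sub_le w s), eval_smul, eval_pow, eval_sub, eval_X, eval_C,
      sub_self, zero_pow (by omega), smul_zero]

/-! ### Linearity in the coefficient sequence -/

lemma eichG_add {a b : ℕ → ℂ} {C C' : ℝ} {A A' : ℕ} (ha : CoeffBound a C A)
    (hb : CoeffBound b C' A') (s : ℕ) {z : ℂ} (hz : 0 < z.im) :
    eichG (a + b) s z = eichG a s z + eichG b s z := by
  unfold eichG
  rw [← (summable_eichTerm ha s hz).tsum_add (summable_eichTerm hb s hz)]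
  refine tsum_congr fun n => ?_
  simp only [eichTerm, Pi.add_apply]
  ring

lemma eichG_smul (c : ℂ) (a : ℕ → ℂ) (s : ℕ) (z : ℂ) :
    eichG (c • a) s z = c * eichG a s z := by
  unfold eichG
  rw [← tsum_mul_left]
  refine tsum_congr fun n => ?_
  simp only [eichTerm, Pi.smul_apply, smul_eq_mul]
  ring

lemma eichE_add {a b : ℕ → ℂ} {C C' : ℝ} {A A' : ℕ} (ha : CoeffBound a C A)
    (hb : CoeffBound b C' A') (w : ℕ) {z : ℂ} (hz : 0 < z.im) :
    eichE (a + b) w z = eichE a w z + eichE b w z := by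
  simp only [eichE, eichG_add ha hb _ hz, mul_add, add_smul, Finset.sum_add_distrib, neg_add]

lemma eichE_smul (c : ℂ) (a : ℕ → ℂ) (w : ℕ) (z : ℂ) :
    eichE (c • a) w z = c • eichE a w z := by
  simp only [eichE, eichG_smul, smul_neg, Finset.smul_sum, smul_smul]
  congr 1
  refine Finset.sum_congr rfl fun s _ => ?_
  congr 1
  ring

end

end Fermat.Agent.Lib.ES
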