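import Mathlib

set_option autoImplicit false

open scoped MatrixGroups

namespace Fermat.Agent.Lib.ES

/-- `SL(2, ℤ)` is finitely generated (by `S` and `T`). -/
instance groupFG_SL2Z : Group.FG SL(2, ℤ) :=
  Group.fg_iff.mpr ⟨{ModularGroup.S, ModularGroup.T},
    SpecialLinearGroup.SL2Z_generators, Set.toFinite _⟩

/-- `Γ₀(N)` is finitely generated (Schreier's lemma). -/
instance groupFG_Gamma0 (N : ℕ) [NeZero N] : Group.FG (CongruenceSubgroup.Gamma0 N) :=
  Subgroup.fg_of_index_ne_zero (CongruenceSubgroup.Gamma0 N)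

end Fermat.Agent.Lib.ES
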