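import Mathlib

/-!
# The integral right action of `2 × 2` matrices on polynomials of degree `≤ w`

`P_w := Fin (w+1) → R` is the module of coefficient vectors of polynomials of degree `≤ w`.
For `α = !![a, b; c, d]` the action is `X ^ m ↦ (a X + b) ^ m * (c X + d) ^ (w - m)`, i.e.
`p ↦ (c X + d) ^ w * p ((a X + b) / (c X + d))`. It is a right action:
`polyActR w (α * β) = polyActR w β ∘ polyActR w α`.
-/

set_option autoImplicit false

namespace Fermat.Agent.Lib.ES

open Polynomial Matrix

noncomputable section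

variable {R : Type*} [CommRing R]

/-- The polynomial attached to a coefficient vector. -/
def toPoly (w : ℕ) : (Fin (w + 1) → R) →ₗ[R] R[X] where
  toFun v := ∑ m : Fin (w + 1), C (v m) * X ^ (m : ℕ)
  map_add' u v := by simp [add_mul, Finset.sum_add_distrib]
  map_smul' r v := by simp [Finset.smul_sum, smul_eq_C_mul, mul_assoc]

/-- The coefficient vector (up to degree `w`) of a polynomial. -/
def ofPoly (w : ℕ) : R[X] →ₗ[R] (Fin (w + 1) → R) where
  toFun p := fun m => p.coeff m
  map_add' p q := by ext; simp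
  map_smul' r p := by ext; simp

@[simp] lemma ofPoly_apply (w : ℕ) (p : R[X]) (m : Fin (w + 1)) : ofPoly w p m = p.coeff m := rfl

lemma toPoly_apply (w : ℕ) (v : Fin (w + 1) → R) :
    toPoly w v = ∑ m : Fin (w + 1), C (v m) * X ^ (m : ℕ) := rfl

lemma coeff_toPoly (w : ℕ) (v : Fin (w + 1) → R) (j : ℕ) :
    (toPoly w v).coeff j = if h : j < w + 1 then v ⟨j, h⟩ else 0 := by
  rw [toPoly_apply, finsetSum_coeff]
  simp only [coeff_C_mul, coeff_X_pow]
  split_ifs with h
  · rw [Finset.sum_eq_single ⟨j, h⟩]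
    · simp
    · intro b _ hb
      have : j ≠ (b : ℕ) := fun e => hb (Fin.ext e.symm)
      simp [this]
    · simp
  · apply Finset.sum_eq_zero
    intro b _
    have : j ≠ (b : ℕ) := fun e => h (e ▸ b.2)
    simp [this]

lemma natDegree_toPoly_le (w : ℕ) (v : Fin (w + 1) → R) : (toPoly w v).natDegree ≤ w := by
  rw [natDegree_le_iff_coeff_eq_zero]
  intro j hj
  rw [coeff_toPoly, dif_neg (by omega)]

@[simp] lemma ofPoly_toPoly (w : ℕ) (v : Fin (w + 1) → R) : ofPoly w (toPoly w v) = v := by
  ext m
  rw [ofPoly_apply, coeff_toPoly, dif_pos m.2]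

lemma toPoly_ofPoly (w : ℕ) {p : R[X]} (hp : p.natDegree ≤ w) : toPoly w (ofPoly w p) = p := by
  ext j
  rw [coeff_toPoly]
  split_ifs with h
  · rfl
  · exact (coeff_eq_zero_of_natDegree_lt (by omega)).symm

lemma toPoly_injective (w : ℕ) : Function.Injective (toPoly (R := R) w) :=
  Function.LeftInverse.injective (ofPoly_toPoly w)


/-- The two linear forms `![a X + b, c X + d]` attached to `α = !![a, b; c, d]`. -/
def linForm (α : Matrix (Fin 2) (Fin 2) R) (i : Fin 2) : R[X] := C (α i 0) * X + C (α i 1)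

/-- The image of `X ^ m` under the weight-`w` action of `α`. -/
def actPoly (w : ℕ) (α : Matrix (Fin 2) (Fin 2) R) (m : ℕ) : R[X] :=
  linForm α 0 ^ m * linForm α 1 ^ (w - m)

lemma natDegree_linForm_le (α : Matrix (Fin 2) (Fin 2) R) (i : Fin 2) :
    (linForm α i).natDegree ≤ 1 := by
  unfold linForm
  exact natDegree_linear_le

lemma natDegree_actPoly_le (w : ℕ) (α : Matrix (Fin 2) (Fin 2) R) {m : ℕ} (hm : m ≤ w) :
    (actPoly w α m).natDegree ≤ w := by
  unfold actPoly
  refine (natDegree_mul_le).trans ?_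
  have h1 := natDegree_pow_le_of_le m (natDegree_linForm_le α 0)
  have h2 := natDegree_pow_le_of_le (w - m) (natDegree_linForm_le α 1)
  omega

/-- The matrix of the action on coefficient vectors. -/
def polyActMat (w : ℕ) (α : Matrix (Fin 2) (Fin 2) R) : Matrix (Fin (w + 1)) (Fin (w + 1)) R :=
  Matrix.of fun j m => (actPoly w α m).coeff j

/-- The weight `w` right action of `α` on coefficient vectors. -/
def polyActR (w : ℕ) (α : Matrix (Fin 2) (Fin 2) R) : (Fin (w + 1) → R) →ₗ[R] (Fin (w + 1) → R) :=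
  (polyActMat w α).mulVecLin

lemma polyActR_apply (w : ℕ) (α : Matrix (Fin 2) (Fin 2) R) (v : Fin (w + 1) → R) :
    polyActR w α v = (polyActMat w α).mulVec v := rfl

lemma toPoly_polyActR (w : ℕ) (α : Matrix (Fin 2) (Fin 2) R) (v : Fin (w + 1) → R) :
    toPoly w (polyActR w α v) = ∑ m : Fin (w + 1), C (v m) * actPoly w α m := by
  have h : polyActR w α v = ofPoly w (∑ m : Fin (w + 1), C (v m) * actPoly w α m) := by
    ext j
    simp [polyActR_apply, Matrix.mulVec, dotProduct, polyActMat, finsetSum_coeff, mul_comm]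
  rw [h, toPoly_ofPoly]
  refine (natDegree_sum_le _ _).trans ?_
  rw [Finset.fold_max_le]
  refine ⟨Nat.zero_le _, fun m _ => ?_⟩
  exact (natDegree_C_mul_le _ _).trans (natDegree_actPoly_le w α (Nat.lt_succ_iff.mp m.2))


/-! ### Homogenisation and the multiplicativity of the action -/

/-- The two linear forms `a X₀ + b X₁`, `c X₀ + d X₁` as bivariate polynomials. -/
def linFormMv (α : Matrix (Fin 2) (Fin 2) R) (i : Fin 2) : MvPolynomial (Fin 2) R :=
  MvPolynomial.C (α i 0) * MvPolynomial.X 0 + MvPolynomial.C (α i 1) * MvPolynomial.X 1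

lemma isHomogeneous_linFormMv (α : Matrix (Fin 2) (Fin 2) R) (i : Fin 2) :
    (linFormMv α i).IsHomogeneous 1 :=
  (MvPolynomial.isHomogeneous_C_mul_X _ _).add (MvPolynomial.isHomogeneous_C_mul_X _ _)

lemma aeval_X_one_linFormMv (α : Matrix (Fin 2) (Fin 2) R) (i : Fin 2) :
    MvPolynomial.aeval ![(X : R[X]), 1] (linFormMv α i) = linForm α i := by
  simp [linFormMv, linForm, C_eq_algebraMap]

lemma aeval_homogenize_eq_sum {A : Type*} [CommRing A] [Algebra R A] (g : Fin 2 → A) (p : R[X])
    (n : ℕ) :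
    MvPolynomial.aeval g (p.homogenize n) =
      ∑ k ∈ Finset.range (n + 1), algebraMap R A (p.coeff k) * (g 0 ^ k * g 1 ^ (n - k)) := by
  rw [homogenize, Finset.Nat.sum_antidiagonal_eq_sum_range_succ_mk, map_sum]
  refine Finset.sum_congr rfl fun k _ => ?_
  rw [MvPolynomial.aeval_monomial]
  congr 1
  rw [Finsupp.update_eq_add_single (by simp), Finsupp.prod_add_index' (by simp) (by simp [pow_add]),
    Finsupp.prod_single_index (by simp), Finsupp.prod_single_index (by simp)]

lemma aeval_linForm_homogenize_toPoly (w : ℕ) (α : Matrix (Fin 2) (Fin 2) R)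
    (v : Fin (w + 1) → R) :
    MvPolynomial.aeval (linForm α) ((toPoly w v).homogenize w) = toPoly w (polyActR w α v) := by
  rw [toPoly_polyActR, aeval_homogenize_eq_sum, ← Fin.sum_univ_eq_sum_range
    (fun k => algebraMap R R[X] ((toPoly w v).coeff k) * (linForm α 0 ^ k * linForm α 1 ^ (w - k)))]
  refine Finset.sum_congr rfl fun m _ => ?_
  rw [coeff_toPoly, dif_pos m.2, actPoly, C_eq_algebraMap]

/-- Homogenising the transformed polynomial is the linear substitution in the homogenisation. -/
lemma homogenize_toPoly_polyActR (w : ℕ) (α : Matrix (Fin 2) (Fin 2) R) (v : Fin (w + 1) → R) :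
    (toPoly w (polyActR w α v)).homogenize w =
      MvPolynomial.bind₁ (linFormMv α) ((toPoly w v).homogenize w) := by
  apply homogenize_eq_of_isHomogeneous
  · simpa using (isHomogeneous_homogenize (n := w) (toPoly w v)).aeval (linFormMv α)
      (isHomogeneous_linFormMv α)
  · rw [← aeval_linForm_homogenize_toPoly, MvPolynomial.aeval_bind₁]
    congr 2
    ext i : 1
    exact aeval_X_one_linFormMv α i

lemma bind₁_linFormMv_linFormMv (α β : Matrix (Fin 2) (Fin 2) R) (i : Fin 2) :
    MvPolynomial.bind₁ (linFormMv β) (linFormMv α i) = linFormMv (α * β) i := by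
  simp only [linFormMv, map_add, map_mul, MvPolynomial.bind₁_C_right, MvPolynomial.bind₁_X_right,
    Matrix.mul_apply, Fin.sum_univ_two]
  ring

/-- The action is a right action. -/
theorem polyActR_mul (w : ℕ) (α β : Matrix (Fin 2) (Fin 2) R) (v : Fin (w + 1) → R) :
    polyActR w (α * β) v = polyActR w β (polyActR w α v) := by
  apply toPoly_injective
  have h1 := homogenize_toPoly_polyActR w (α * β) v
  have h2 := homogenize_toPoly_polyActR w β (polyActR w α v)
  rw [homogenize_toPoly_polyActR w α v, MvPolynomial.bind₁_bind₁] at h2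
  simp only [bind₁_linFormMv_linFormMv] at h2
  rw [← h1] at h2
  have e1 := aeval_homogenize_X_one _ (natDegree_toPoly_le w (polyActR w β (polyActR w α v)))
  have e2 := aeval_homogenize_X_one _ (natDegree_toPoly_le w (polyActR w (α * β) v))
  rw [← e1, ← e2, h2]

theorem polyActR_one (w : ℕ) (v : Fin (w + 1) → R) :
    polyActR w (1 : Matrix (Fin 2) (Fin 2) R) v = v := by
  apply toPoly_injective
  rw [toPoly_polyActR, toPoly_apply]
  refine Finset.sum_congr rfl fun m _ => ?_
  simp [actPoly, linForm]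

lemma homogenize_pow_of_natDegree_le_one (l : R[X]) (hl : l.natDegree ≤ 1) (n : ℕ) :
    (l ^ n).homogenize n = l.homogenize 1 ^ n := by
  have h := homogenize_finsetProd (s := Finset.range n) (p := fun _ => l) (n := fun _ => 1)
    (fun _ _ => hl)
  simpa using h

lemma homogenize_linear (s t : R) :
    (C s * X + C t : R[X]).homogenize 1 =
      MvPolynomial.C s * MvPolynomial.X 0 + MvPolynomial.C t * MvPolynomial.X 1 := by
  rw [homogenize_add, homogenize_C_mul, homogenize_X one_ne_zero, homogenize_C]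
  simp

/-- The action on `w`-th powers of linear polynomials. -/
theorem polyActR_ofPoly_linear_pow (w : ℕ) (α : Matrix (Fin 2) (Fin 2) R) (s t : R) :
    polyActR w α (ofPoly w ((C s * X + C t) ^ w)) =
      ofPoly w ((C s * linForm α 0 + C t * linForm α 1) ^ w) := by
  have hdeg : ((C s * X + C t : R[X]) ^ w).natDegree ≤ w := by
    simpa using natDegree_pow_le_of_le w (natDegree_linear_le (a := s) (b := t))
  have h := aeval_linForm_homogenize_toPoly w α (ofPoly w ((C s * X + C t) ^ w))
  rw [toPoly_ofPoly w hdeg, homogenize_pow_of_natDegree_le_one _ natDegree_linear_le,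
    homogenize_linear] at h
  rw [← ofPoly_toPoly w (polyActR w α _), ← h]
  simp [C_eq_algebraMap]

/-! ### Base change and the integral structure -/

section map

variable {S : Type*} [CommRing S] (f : R →+* S)

lemma linForm_map (α : Matrix (Fin 2) (Fin 2) R) (i : Fin 2) :
    linForm (α.map f) i = (linForm α i).map f := by
  simp [linForm]

lemma actPoly_map (w : ℕ) (α : Matrix (Fin 2) (Fin 2) R) (m : ℕ) :
    actPoly w (α.map f) m = (actPoly w α m).map f := by
  simp [actPoly, linForm_map]

lemma polyActMat_map (w : ℕ) (α : Matrix (Fin 2) (Fin 2) R) :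
    polyActMat w (α.map f) = (polyActMat w α).map f := by
  ext j m
  simp [polyActMat, actPoly_map]

end map

/-- The weight `w` right action of an integral matrix on complex coefficient vectors. -/
def polyAct (w : ℕ) (α : Matrix (Fin 2) (Fin 2) ℤ) : (Fin (w + 1) → ℂ) →ₗ[ℂ] (Fin (w + 1) → ℂ) :=
  polyActR w (α.map (Int.castRingHom ℂ))

lemma polyAct_def (w : ℕ) (α : Matrix (Fin 2) (Fin 2) ℤ) :
    polyAct w α = polyActR w (α.map (Int.castRingHom ℂ)) := rfl

/-- The action of an integral matrix is given by an integral matrix. -/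
theorem polyAct_eq_mulVec (w : ℕ) (α : Matrix (Fin 2) (Fin 2) ℤ) (v : Fin (w + 1) → ℂ) :
    polyAct w α v = ((polyActMat w α).map (Int.castRingHom ℂ)).mulVec v := by
  rw [polyAct_def, polyActR_apply, polyActMat_map]

theorem polyAct_apply_apply (w : ℕ) (α : Matrix (Fin 2) (Fin 2) ℤ) (v : Fin (w + 1) → ℂ)
    (j : Fin (w + 1)) :
    polyAct w α v j = ∑ m : Fin (w + 1), ((polyActMat w α j m : ℤ) : ℂ) * v m := by
  rw [polyAct_eq_mulVec]
  simp [Matrix.mulVec, dotProduct]

theorem polyAct_mul (w : ℕ) (α β : Matrix (Fin 2) (Fin 2) ℤ) (v : Fin (w + 1) → ℂ) :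
    polyAct w (α * β) v = polyAct w β (polyAct w α v) := by
  rw [polyAct_def, polyAct_def, polyAct_def, Matrix.map_mul, polyActR_mul]

@[simp] theorem polyAct_one (w : ℕ) (v : Fin (w + 1) → ℂ) :
    polyAct w (1 : Matrix (Fin 2) (Fin 2) ℤ) v = v := by
  rw [polyAct_def, Matrix.map_one _ (map_zero _) (map_one _), polyActR_one]

end

end Fermat.Agent.Lib.ES
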