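import Mathlib
import Fermat.Prelude.Def_CuspForm_HeckeAlgebra
import Fermat.Agent.Lib.ES.Assembly
import Fermat.Agent.Lib.ES.FG
import Fermat.Agent.Lib.ES.PolyAction

set_option autoImplicit false

open scoped MatrixGroups
open CongruenceSubgroup

namespace Fermat.Agent.Lib.ES

/-- Final assembly for S22 in weight `w + 2`, from an abstract Eichler–Shimura cocycle. -/
theorem finite_heckeAlgebra_of_cocycle (N : ℕ) [NeZero N] (w : ℕ) (S : Set ℕ)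
    (coc : SL(2, ℤ) → CuspForm (Gamma0 N) ((w : ℤ) + 2) →ₗ[ℂ] (Fin (w + 1) → ℂ))
    (h_one : coc 1 = 0)
    (h_mul : ∀ γ ∈ Gamma0 N, ∀ h ∈ Gamma0 N, ∀ f,
      coc (γ * h) f = polyAct w (h : Matrix (Fin 2) (Fin 2) ℤ) (coc γ f) + coc h f)
    (h_inj : ∀ f, (∀ γ ∈ Gamma0 N, coc γ f = 0) → f = 0)
    (h_T : ∀ (ℓ : ℕ) (hℓ : ℓ.Prime) (hℓN : ¬ ℓ ∣ N), ∀ γ ∈ Gamma0 N,
      ∃ (X : Type) (_ : Fintype X) (γ' : X → SL(2, ℤ)) (α : X → Matrix (Fin 2) (Fin 2) ℤ),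
        (∀ x, γ' x ∈ Gamma0 N) ∧
        ∀ f, coc γ (CuspForm.heckeTLin ((w : ℤ) + 2) hℓ hℓN f)
          = ∑ x, polyAct w (α x) (coc (γ' x) f))
    (h_U : ∀ (q : ℕ) (hqN : q ∣ N), q.Prime → ∀ γ ∈ Gamma0 N,
      ∃ (X : Type) (_ : Fintype X) (γ' : X → SL(2, ℤ)) (α : X → Matrix (Fin 2) (Fin 2) ℤ),
        (∀ x, γ' x ∈ Gamma0 N) ∧
        ∀ f, coc γ (CuspForm.heckeULin ((w : ℤ) + 2) hqN f)
          = ∑ x, polyAct w (α x) (coc (γ' x) f)) :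
    Module.Finite ℤ (CuspForm.heckeAlgebra N ((w : ℤ) + 2) S) := by
  classical
  show Module.Finite ℤ (Algebra.adjoin ℤ (CuspForm.heckeGenerators N ((w : ℤ) + 2) S))
  refine finite_adjoin_of_cocycle (G := Gamma0 N) (ι := Fin (w + 1))
    (CuspForm.heckeGenerators N ((w : ℤ) + 2) S)
    (fun g => coc (g : SL(2, ℤ)))
    (fun h => polyActMat w ((h : SL(2, ℤ)) : Matrix (Fin 2) (Fin 2) ℤ))
    (by simpa using h_one) ?_ ?_ ?_
  · intro g h f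
    have := h_mul g g.2 h h.2 f
    rw [polyAct_eq_mulVec] at this
    simpa using this
  · intro f hf
    exact h_inj f fun γ hγ => hf ⟨γ, hγ⟩
  · intro T hT g
    have key : ∀ (T' : Module.End ℂ (CuspForm (Gamma0 N) ((w : ℤ) + 2))),
        (∃ (X : Type) (_ : Fintype X) (γ' : X → SL(2, ℤ)) (α : X → Matrix (Fin 2) (Fin 2) ℤ),
          (∀ x, γ' x ∈ Gamma0 N) ∧
          ∀ f, coc g (T' f) = ∑ x, polyAct w (α x) (coc (γ' x) f)) →
        ∃ (X : Type) (_ : Fintype X) (gx : X → Gamma0 N)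
          (A : X → Matrix (Fin (w + 1)) (Fin (w + 1)) ℤ),
          ∀ f, coc g (T' f)
            = ∑ x, ((A x).map (Int.cast : ℤ → ℂ)).mulVec (coc (gx x) f) := by
      rintro T' ⟨X, hX, γ', α, hγ', hα⟩
      refine ⟨X, hX, fun x => ⟨γ' x, hγ' x⟩, fun x => polyActMat w (α x), fun f => ?_⟩
      rw [hα f]
      refine Finset.sum_congr rfl fun x _ => ?_
      rw [polyAct_eq_mulVec]
      rfl
    rcases hT with ⟨ℓ, hℓ, hℓN, -, rfl⟩ | ⟨q, hqN, hq, -, rfl⟩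
    · exact key _ (h_T ℓ hℓ hℓN g g.2)
    · exact key _ (h_U q hqN hq g g.2)

end Fermat.Agent.Lib.ES
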