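import Fermat.Agent.Lib.ES.PolyAction

set_option autoImplicit false

/-!
# Abstract Hecke compatibility of Eichler cocycles

Pure algebra: if the Eichler integral of `f'` is the sum of the transforms of the Eichler integral
of `f` by matrices `α j`, and `α j * γ = γ' j * α (σ j)` for a permutation `σ`, then the cocycle of
`f'` at `γ` is `∑ j, (cocycle of f at γ' j) | α (σ j)`.
-/

namespace Fermat.Agent.Lib.ES

open Matrix Matrix.SpecialLinearGroup UpperHalfPlane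
open scoped MatrixGroups

/-- Two elements of `GL₂(ℝ)` whose matrices are the real images of integral matrices multiply
accordingly. -/
theorem coe_mul_eq_map_mul {A B : GL (Fin 2) ℝ} {α β : Matrix (Fin 2) (Fin 2) ℤ}
    (hA : (A : Matrix (Fin 2) (Fin 2) ℝ) = α.map (Int.cast : ℤ → ℝ))
    (hB : (B : Matrix (Fin 2) (Fin 2) ℝ) = β.map (Int.cast : ℤ → ℝ)) :
    ((A * B : GL (Fin 2) ℝ) : Matrix (Fin 2) (Fin 2) ℝ) = (α * β).map (Int.cast : ℤ → ℝ) := by
  rw [Units.val_mul, hA, hB, Matrix.map_mul_intCast]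

theorem coe_mapGL_eq_map_intCast (g : SL(2, ℤ)) :
    ((mapGL ℝ g : GL (Fin 2) ℝ) : Matrix (Fin 2) (Fin 2) ℝ) =
      (g : Matrix (Fin 2) (Fin 2) ℤ).map (Int.cast : ℤ → ℝ) := by
  ext a b
  simp

/-- Abstract form of the Hecke compatibility. `Ef`, `Ef'` play the role of the Eichler integrals
of `f` and `f' = ∑ j, f ∣ α j`. -/
theorem hecke_compat_abstract {w : ℕ} {ι : Type*} [Fintype ι]
    (Ef Ef' : ℍ → (Fin (w + 1) → ℂ))
    (α : ι → Matrix (Fin 2) (Fin 2) ℤ) (A : ι → GL (Fin 2) ℝ)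
    (hA : ∀ j, (A j : Matrix (Fin 2) (Fin 2) ℝ) = (α j).map (Int.cast : ℤ → ℝ))
    (hE' : ∀ z, Ef' z = ∑ j, polyAct w (α j) (Ef (A j • z)))
    (γ : SL(2, ℤ)) (γ' : ι → SL(2, ℤ)) (σ : Equiv.Perm ι)
    (hσ : ∀ j, α j * (γ : Matrix (Fin 2) (Fin 2) ℤ) =
      (γ' j : Matrix (Fin 2) (Fin 2) ℤ) * α (σ j))
    (c' : Fin (w + 1) → ℂ)
    (hc' : ∀ z : ℍ, polyAct w (γ : Matrix (Fin 2) (Fin 2) ℤ) (Ef' (γ • z)) - Ef' z = c')
    (c : ι → (Fin (w + 1) → ℂ))
    (hc : ∀ j, ∀ z : ℍ,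
      polyAct w (γ' j : Matrix (Fin 2) (Fin 2) ℤ) (Ef (γ' j • z)) - Ef z = c j) :
    c' = ∑ j, polyAct w (α (σ j)) (c j) := by
  have z : ℍ := UpperHalfPlane.I
  -- the GL₂(ℝ) form of the coset relation
  have hGL : ∀ j, A j * mapGL ℝ γ = mapGL ℝ (γ' j) * A (σ j) := by
    intro j
    apply Units.ext
    rw [coe_mul_eq_map_mul (hA j) (coe_mapGL_eq_map_intCast γ),
      coe_mul_eq_map_mul (coe_mapGL_eq_map_intCast (γ' j)) (hA (σ j)), hσ j]
  have hpt : ∀ j, A j • (γ • z) = γ' j • (A (σ j) • z) := by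
    intro j
    change A j • (mapGL ℝ γ • z) = mapGL ℝ (γ' j) • (A (σ j) • z)
    rw [← mul_smul, ← mul_smul, hGL j]
  have hpoly : ∀ j (v : Fin (w + 1) → ℂ),
      polyAct w (γ : Matrix (Fin 2) (Fin 2) ℤ) (polyAct w (α j) v) =
        polyAct w (α (σ j)) (polyAct w (γ' j : Matrix (Fin 2) (Fin 2) ℤ) v) := by
    intro j v
    rw [← polyAct_mul, ← polyAct_mul, hσ j]
  rw [← hc' z, hE' (γ • z), hE' z, map_sum]
  simp only [hpoly, hpt]
  rw [← Equiv.sum_comp σ (fun j => polyAct w (α j) (Ef (A j • z))), ← Finset.sum_sub_distrib]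
  refine Finset.sum_congr rfl fun j _ => ?_
  rw [← map_sub, hc j]

end Fermat.Agent.Lib.ES
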