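import Fermat.Agent.Lib.ES.HeckeCosets

set_option autoImplicit false

/-!
# Families of coset data for the Hecke operators

For `γ ∈ Γ₀(N)` we package the coset relations of `HeckeCosets` as families indexed by the
coset representatives together with the permutation of the index set.
-/

namespace Fermat.Agent.Lib.ES

open Matrix.SpecialLinearGroup UpperHalfPlane ModularForm
open P2MW.S_ModularForm_heckeT_slash_eq_self_of_mem_Gamma0.ModularForm.HeckeSlashInvariance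
open scoped MatrixGroups OnePoint

/-- The permutation of `ℙ¹(𝔽_p)` induced by `γ` (through `redMatrix`). -/
noncomputable def heckePermT (p : ℕ) [Fact p.Prime] (γ : SL(2, ℤ)) :
    Equiv.Perm (OnePoint (ZMod p)) :=
  MulAction.toPerm (redMatrix p γ)

theorem heckePermT_apply (p : ℕ) [Fact p.Prime] (γ : SL(2, ℤ)) (x : OnePoint (ZMod p)) :
    heckePermT p γ x = redMatrix p γ • x := rfl

/-- Coset data for `T_p`, `p ∤ N`: a family `γ' x ∈ Γ₀(N)` with
`α_x γ = γ'_x α_{σ x}` for the permutation `σ = heckePermT p γ`. -/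
theorem exists_family_heckeRepZ {p : ℕ} [Fact p.Prime] {N : ℕ} (hpN : ¬ p ∣ N) (γ : SL(2, ℤ))
    (hγ : γ ∈ CongruenceSubgroup.Gamma0 N) :
    ∃ γ' : OnePoint (ZMod p) → SL(2, ℤ), (∀ x, γ' x ∈ CongruenceSubgroup.Gamma0 N) ∧
      ∀ x, heckeRepZ p x * (γ : Matrix (Fin 2) (Fin 2) ℤ) =
        (γ' x : Matrix (Fin 2) (Fin 2) ℤ) * heckeRepZ p (heckePermT p γ x) := by
  choose γ' h1 h2 using heckeRepZ_mul hpN γ hγ
  exact ⟨γ', h1, h2⟩

/-- Coset data for `U_p`, `p ∣ N`: a permutation `σ` of `ZMod p` and a family `γ' x ∈ Γ₀(N)` with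
`α_x γ = γ'_x α_{σ x}`. -/
theorem exists_family_heckeMatZ {p : ℕ} [NeZero p] {N : ℕ} (hpN : p ∣ N) (γ : SL(2, ℤ))
    (hγ : γ ∈ CongruenceSubgroup.Gamma0 N) :
    ∃ (σ : Equiv.Perm (ZMod p)) (γ' : ZMod p → SL(2, ℤ)),
      (∀ x, γ' x ∈ CongruenceSubgroup.Gamma0 N) ∧
      ∀ x, heckeMatZ p x.val * (γ : Matrix (Fin 2) (Fin 2) ℤ) =
        (γ' x : Matrix (Fin 2) (Fin 2) ℤ) * heckeMatZ p (σ x).val := by
  have hcN : (N : ℤ) ∣ γ 1 0 :=
    (ZMod.intCast_zmod_eq_zero_iff_dvd _ _).mp (CongruenceSubgroup.Gamma0_mem.mp hγ)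
  have hc : ((γ 1 0 : ℤ) : ZMod p) = 0 :=
    (ZMod.intCast_zmod_eq_zero_iff_dvd _ _).mpr ((Int.natCast_dvd_natCast.mpr hpN).trans hcN)
  have h := fun x => heckeMatZ_mul hpN γ hγ x
  choose _ γ' h1 h2 using h
  exact ⟨affinePerm γ hc, γ', h1, h2⟩

end Fermat.Agent.Lib.ES
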