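import Fermat.Agent.Lib.ES.Cocycle
import Fermat.Agent.Lib.ES.HeckeAbstract
import Fermat.Agent.Lib.ES.HeckeFamilies

set_option autoImplicit false

/-!
# Hecke compatibility of the Eichler–Shimura cocycle

Generic statement `cocycle_of_sum_slash` (if `f' = ∑ j, f ∣ α j` for upper triangular integral
matrices `α j` permuted by `γ` up to `Gamma0 N`, then the cocycle of `f'` at `γ` is the sum of the
transforms of the cocycles of `f`), and its instances for `T_p` and `U_p`.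
-/

namespace Fermat.Agent.Lib.ES

open Polynomial Complex Filter Topology UpperHalfPlane CongruenceSubgroup Matrix
open Matrix.SpecialLinearGroup ModularForm
open scoped MatrixGroups

noncomputable section

/-! ### Real forms of integral matrices -/

section realForm

variable {α : Matrix (Fin 2) (Fin 2) ℤ} {A : GL (Fin 2) ℝ}

theorem det_val_eq_of_coe_eq (hA : (A : Matrix (Fin 2) (Fin 2) ℝ) = α.map (Int.cast : ℤ → ℝ)) :
    (A.det.val : ℝ) = ((α.det : ℤ) : ℝ) := by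
  rw [Matrix.GeneralLinearGroup.val_det_apply, hA, Matrix.det_fin_two, Matrix.det_fin_two]
  simp only [Matrix.map_apply]
  push_cast
  ring

theorem det_val_pos_of_coe_eq (hA : (A : Matrix (Fin 2) (Fin 2) ℝ) = α.map (Int.cast : ℤ → ℝ))
    (hdet : 0 < α.det) : 0 < (A.det.val : ℝ) := by
  rw [det_val_eq_of_coe_eq hA]
  exact_mod_cast hdet

theorem num_eq_of_coe_eq (hA : (A : Matrix (Fin 2) (Fin 2) ℝ) = α.map (Int.cast : ℤ → ℝ))
    (z : ℂ) : num A z = (α 0 0 : ℂ) * z + (α 0 1 : ℂ) := by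
  simp [num, hA]

theorem denom_eq_mobDen_of_coe_eq
    (hA : (A : Matrix (Fin 2) (Fin 2) ℝ) = α.map (Int.cast : ℤ → ℝ)) (z : ℂ) :
    denom A z = mobDen α z := by
  simp [denom, mobDen, hA]

theorem mob_eq_coe_smul_of_coe_eq
    (hA : (A : Matrix (Fin 2) (Fin 2) ℝ) = α.map (Int.cast : ℤ → ℝ)) (hdet : 0 < α.det) (τ : ℍ) :
    mob α (τ : ℂ) = ((A • τ : ℍ) : ℂ) := by
  rw [coe_smul_of_det_pos (det_val_pos_of_coe_eq hA hdet), num_eq_of_coe_eq hA,
    denom_eq_mobDen_of_coe_eq hA, mob_def]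

theorem mobDen_ne_zero_of_coe_eq
    (hA : (A : Matrix (Fin 2) (Fin 2) ℝ) = α.map (Int.cast : ℤ → ℝ)) (τ : ℍ) :
    mobDen α (τ : ℂ) ≠ 0 := by
  rw [← denom_eq_mobDen_of_coe_eq hA]
  exact denom_ne_zero A τ

/-- The slash formula in terms of `mobDen` and the integral determinant. -/
theorem slash_apply_of_coe_eq (hA : (A : Matrix (Fin 2) (Fin 2) ℝ) = α.map (Int.cast : ℤ → ℝ))
    (hdet : 0 < α.det) (w : ℕ) (g : ℍ → ℂ) (τ : ℍ) :
    (g ∣[(w : ℤ) + 2] A) τ =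
      g (A • τ) * ((α.det : ℤ) : ℂ) ^ (w + 1) / mobDen α (τ : ℂ) ^ (w + 2) := by
  have hpos := det_val_pos_of_coe_eq hA hdet
  rw [ModularForm.slash_apply, UpperHalfPlane.σ, if_pos hpos, ContinuousAlgEquiv.refl_apply,
    abs_of_pos hpos, det_val_eq_of_coe_eq hA, denom_eq_mobDen_of_coe_eq hA]
  have hk1 : (w : ℤ) + 2 - 1 = ((w + 1 : ℕ) : ℤ) := by push_cast; ring
  have hk2 : -((w : ℤ) + 2) = -((w + 2 : ℕ) : ℤ) := by push_cast; ring
  rw [hk1, hk2, zpow_natCast, _root_.zpow_neg, zpow_natCast, div_eq_mul_inv,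
    Complex.ofReal_intCast]

end realForm

/-! ### The Eichler integral of a sum of slashes by upper triangular matrices -/

section sumSlash

variable {N : ℕ} [NeZero N] {w : ℕ}

/-- Vertical decay of the transform of an Eichler integral by an upper triangular matrix. -/
theorem tendsto_polyAct_eichE_mob_vertical {a : ℕ → ℂ} {C : ℝ} {A : ℕ} (h : CoeffBound a C A)
    (w : ℕ) (α : Matrix (Fin 2) (Fin 2) ℤ) (hdet : 0 < α.det) (hut : α 1 0 = 0) :
    Tendsto (fun y : ℝ => polyAct w α (eichE a w (mob α ((y : ℂ) * Complex.I)))) atTop (𝓝 0) := by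
  have hdet' : 0 < α 0 0 * α 1 1 := by
    have := hdet
    rw [Matrix.det_fin_two, hut, mul_zero, sub_zero] at this
    exact this
  have hd : (α 1 1 : ℝ) ≠ 0 := by
    intro h0
    have : α 1 1 = 0 := by exact_mod_cast h0
    rw [this, mul_zero] at hdet'
    exact lt_irrefl _ hdet'
  have hpos : 0 < (α 0 0 : ℝ) / (α 1 1 : ℝ) := by
    have h1 : (0 : ℝ) < (α 0 0 : ℝ) * (α 1 1 : ℝ) := by exact_mod_cast hdet'
    have h2 : (α 0 0 : ℝ) / (α 1 1 : ℝ) = (α 0 0 : ℝ) * (α 1 1 : ℝ) / (α 1 1 : ℝ) ^ 2 := by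
      field_simp
    rw [h2]
    exact div_pos h1 (by positivity)
  have hmob : ∀ y : ℝ, mob α ((y : ℂ) * Complex.I) =
      (((α 0 1 : ℝ) / (α 1 1 : ℝ) : ℝ) : ℂ) + ((((α 0 0 : ℝ) / (α 1 1 : ℝ)) * y : ℝ) : ℂ) * Complex.I := by
    intro y
    have hdC : ((α 1 1 : ℤ) : ℂ) ≠ 0 := by
      intro h0
      apply hd
      have : α 1 1 = 0 := by exact_mod_cast h0
      rw [this]; simp
    rw [mob, hut]
    push_cast
    rw [zero_mul, zero_add]
    field_simp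
    ring
  have h1 : Tendsto (fun y : ℝ => ((α 0 0 : ℝ) / (α 1 1 : ℝ)) * y) atTop atTop :=
    Tendsto.const_mul_atTop hpos tendsto_id
  have h2 := (tendsto_eichE_vertical h w ((α 0 1 : ℝ) / (α 1 1 : ℝ))).comp h1
  have h3 : Tendsto (fun y : ℝ => eichE a w (mob α ((y : ℂ) * Complex.I))) atTop (𝓝 0) := by
    refine h2.congr fun y => ?_
    simp only [Function.comp_apply]
    rw [hmob y]
  have hcont : Continuous (polyAct w α) := LinearMap.continuous_of_finiteDimensional _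
  have h4 := (hcont.tendsto 0).comp h3
  rw [map_zero] at h4
  exact h4

/-- The Eichler integral of `f' = ∑ j, f ∣ α j` (upper triangular integral `α j` of positive
determinant) is the sum of the transforms of the Eichler integral of `f`. -/
theorem eichE_of_sum_slash {ι : Type*} [Fintype ι]
    (α : ι → Matrix (Fin 2) (Fin 2) ℤ) (A : ι → GL (Fin 2) ℝ)
    (hA : ∀ j, (A j : Matrix (Fin 2) (Fin 2) ℝ) = (α j).map (Int.cast : ℤ → ℝ))
    (hdet : ∀ j, 0 < (α j).det) (hut : ∀ j, α j 1 0 = 0)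
    (f f' : CuspForm (Gamma0 N) ((w : ℤ) + 2))
    (hf' : ⇑f' = ∑ j, ⇑f ∣[(w : ℤ) + 2] A j) (τ : ℍ) :
    eichE (cuspCoeff f') w (τ : ℂ) =
      ∑ j, polyAct w (α j) (eichE (cuspCoeff f) w ((A j • τ : ℍ) : ℂ)) := by
  classical
  obtain ⟨C, hC⟩ := exists_coeffBound f
  obtain ⟨C', hC'⟩ := exists_coeffBound f'
  set Φ : ℂ → (Fin (w + 1) → ℂ) := fun z =>
    eichE (cuspCoeff f') w z - ∑ j, polyAct w (α j) (eichE (cuspCoeff f) w (mob (α j) z)) with hΦ
  have hderiv : ∀ z : ℂ, 0 < z.im → HasDerivAt Φ 0 z := by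
    intro z hz
    set σ : ℍ := ⟨z, hz⟩ with hσ
    have hzσ : z = (σ : ℂ) := rfl
    have h1 := hasDerivAt_eichE hC' w hz
    have h2 : ∀ j ∈ (Finset.univ : Finset ι),
        HasDerivAt (fun z => polyAct w (α j) (eichE (cuspCoeff f) w (mob (α j) z)))
          (-(eichG (cuspCoeff f) 0 (mob (α j) z) * ((α j).det : ℂ) ^ (w + 1) /
            mobDen (α j) z ^ (w + 2)) • powVec w w z) z := by
      intro j _
      refine hasDerivAt_polyAct_eichE_mob hC w (α j) ?_ ?_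
      · rw [hzσ]; exact mobDen_ne_zero_of_coe_eq (hA j) σ
      · rw [hzσ, mob_eq_coe_smul_of_coe_eq (hA j) (hdet j)]
        exact (A j • σ).im_pos
    have h3 := h1.sub (HasDerivAt.fun_sum h2)
    refine h3.congr_deriv ?_
    rw [← Finset.sum_smul, ← sub_smul]
    convert zero_smul ℂ (powVec w w z) using 2
    rw [Finset.sum_neg_distrib, neg_sub_neg, sub_eq_zero, hzσ, eichG_zero_eq f' σ, hf',
      Finset.sum_apply]
    refine Finset.sum_congr rfl fun j _ => ?_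
    rw [slash_apply_of_coe_eq (hA j) (hdet j), mob_eq_coe_smul_of_coe_eq (hA j) (hdet j),
      eichG_zero_eq f]
  have hlim : Tendsto (fun y : ℝ => Φ ((y : ℂ) * Complex.I)) atTop (𝓝 0) := by
    have h1 : Tendsto (fun y : ℝ => eichE (cuspCoeff f') w ((y : ℂ) * Complex.I)) atTop (𝓝 0) := by
      refine (tendsto_eichE_vertical hC' w 0).congr fun y => ?_
      simp
    have h2 : Tendsto (fun y : ℝ => ∑ j, polyAct w (α j)
        (eichE (cuspCoeff f) w (mob (α j) ((y : ℂ) * Complex.I)))) atTop (𝓝 (∑ _j : ι, 0)) :=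
      tendsto_finsetSum _ fun j _ =>
        tendsto_polyAct_eichE_mob_vertical hC w (α j) (hdet j) (hut j)
    have h3 := h1.sub h2
    simpa using h3
  have hzero := eq_zero_of_hasDerivAt_zero_of_tendsto hderiv hlim τ.im_pos
  rw [hΦ] at hzero
  simp only [sub_eq_zero] at hzero
  rw [hzero]
  refine Finset.sum_congr rfl fun j _ => ?_
  rw [mob_eq_coe_smul_of_coe_eq (hA j) (hdet j)]

/-- **Generic Hecke compatibility (H).** -/
theorem cocycle_of_sum_slash {ι : Type*} [Fintype ι]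
    (α : ι → Matrix (Fin 2) (Fin 2) ℤ) (A : ι → GL (Fin 2) ℝ)
    (hA : ∀ j, (A j : Matrix (Fin 2) (Fin 2) ℝ) = (α j).map (Int.cast : ℤ → ℝ))
    (hdet : ∀ j, 0 < (α j).det) (hut : ∀ j, α j 1 0 = 0)
    (f f' : CuspForm (Gamma0 N) ((w : ℤ) + 2))
    (hf' : ⇑f' = ∑ j, ⇑f ∣[(w : ℤ) + 2] A j)
    (γ : SL(2, ℤ)) (hγ : γ ∈ Gamma0 N) (γ' : ι → SL(2, ℤ)) (hγ' : ∀ j, γ' j ∈ Gamma0 N)
    (σ : Equiv.Perm ι)
    (hσ : ∀ j, α j * (γ : Matrix (Fin 2) (Fin 2) ℤ) =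
      (γ' j : Matrix (Fin 2) (Fin 2) ℤ) * α (σ j)) :
    cocycle N w γ f' = ∑ j, polyAct w (α (σ j)) (cocycle N w (γ' j) f) := by
  refine hecke_compat_abstract (fun τ : ℍ => eichE (cuspCoeff f) w (τ : ℂ))
    (fun τ : ℍ => eichE (cuspCoeff f') w (τ : ℂ)) α A hA
    (fun τ => eichE_of_sum_slash α A hA hdet hut f f' hf' τ) γ γ' σ hσ
    (cocycle N w γ f') (fun τ => ?_) (fun j => cocycle N w (γ' j) f) (fun j τ => ?_)
  · have := cocycle_eq hγ f' τ.im_pos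
    rwa [mob_coe] at this
  · have := cocycle_eq (hγ' j) f τ.im_pos
    rwa [mob_coe] at this

end sumSlash

/-! ### The Hecke operators `T_p` and `U_p` -/

section hecke

open P2MW.S_ModularForm_heckeT_slash_eq_self_of_mem_Gamma0.ModularForm.HeckeSlashInvariance

variable {N : ℕ} [NeZero N] {w : ℕ}

/-- Hecke compatibility of the cocycle for `T_p`, `p ∤ N`. -/
theorem cocycle_heckeTLin {p : ℕ} [Fact p.Prime] (hp : p.Prime) (hpN : ¬ p ∣ N) (γ : SL(2, ℤ))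
    (hγ : γ ∈ Gamma0 N) :
    ∃ γ' : OnePoint (ZMod p) → SL(2, ℤ), (∀ x, γ' x ∈ Gamma0 N) ∧
      ∀ f : CuspForm (Gamma0 N) ((w : ℤ) + 2),
        cocycle N w γ (CuspForm.heckeTLin ((w : ℤ) + 2) hp hpN f) =
          ∑ x, polyAct w (heckeRepZ p (heckePermT p γ x)) (cocycle N w (γ' x) f) := by
  obtain ⟨γ', h1, h2⟩ := exists_family_heckeRepZ hpN γ hγ
  refine ⟨γ', h1, fun f => ?_⟩
  refine cocycle_of_sum_slash (heckeRepZ p) (heckeRep p) (coe_heckeRep_eq_map hp.ne_zero)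
    (fun x => ?_) (heckeRepZ_apply_one_zero p) f _ (coe_heckeTLin_eq_sum _ hp hpN f) γ hγ γ' h1
    (heckePermT p γ) h2
  rw [det_heckeRepZ]
  exact_mod_cast hp.pos

/-- Hecke compatibility of the cocycle for `U_p`, `p ∣ N`. -/
theorem cocycle_heckeULin {p : ℕ} [NeZero p] (hpN : p ∣ N) (γ : SL(2, ℤ))
    (hγ : γ ∈ Gamma0 N) :
    ∃ (σ : Equiv.Perm (ZMod p)) (γ' : ZMod p → SL(2, ℤ)), (∀ x, γ' x ∈ Gamma0 N) ∧
      ∀ f : CuspForm (Gamma0 N) ((w : ℤ) + 2),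
        cocycle N w γ (CuspForm.heckeULin ((w : ℤ) + 2) hpN f) =
          ∑ x, polyAct w (heckeMatZ p (σ x).val) (cocycle N w (γ' x) f) := by
  obtain ⟨σ, γ', h1, h2⟩ := exists_family_heckeMatZ hpN γ hγ
  refine ⟨σ, γ', h1, fun f => ?_⟩
  refine cocycle_of_sum_slash (fun x : ZMod p => heckeMatZ p x.val)
    (fun x : ZMod p => heckeMatrix p x.val) (fun x => coe_heckeMatrix_eq_map (NeZero.ne p) x.val)
    (fun x => ?_) (fun x => heckeMatZ_apply_one_zero p x.val) f _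
    (coe_heckeULin_eq_sum _ hpN f) γ hγ γ' h1 σ h2
  rw [det_heckeMatZ]
  exact_mod_cast Nat.pos_of_ne_zero (NeZero.ne p)

/-- `h_T` of `finite_heckeAlgebra_of_cocycle` for the Eichler–Shimura cocycle. -/
theorem cocycle_hT (N : ℕ) [NeZero N] (w : ℕ) :
    ∀ (ℓ : ℕ) (hℓ : ℓ.Prime) (hℓN : ¬ ℓ ∣ N), ∀ γ ∈ Gamma0 N,
      ∃ (X : Type) (_ : Fintype X) (γ' : X → SL(2, ℤ)) (α : X → Matrix (Fin 2) (Fin 2) ℤ),
        (∀ x, γ' x ∈ Gamma0 N) ∧
        ∀ f, cocycle N w γ (CuspForm.heckeTLin ((w : ℤ) + 2) hℓ hℓN f)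
          = ∑ x, polyAct w (α x) (cocycle N w (γ' x) f) := by
  intro ℓ hℓ hℓN γ hγ
  have : Fact ℓ.Prime := ⟨hℓ⟩
  obtain ⟨γ', h1, h2⟩ := cocycle_heckeTLin (w := w) hℓ hℓN γ hγ
  exact ⟨OnePoint (ZMod ℓ), inferInstance, γ', fun x => heckeRepZ ℓ (heckePermT ℓ γ x), h1, h2⟩

/-- `h_U` of `finite_heckeAlgebra_of_cocycle` for the Eichler–Shimura cocycle. -/
theorem cocycle_hU (N : ℕ) [NeZero N] (w : ℕ) :
    ∀ (q : ℕ) (hqN : q ∣ N), q.Prime → ∀ γ ∈ Gamma0 N,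
      ∃ (X : Type) (_ : Fintype X) (γ' : X → SL(2, ℤ)) (α : X → Matrix (Fin 2) (Fin 2) ℤ),
        (∀ x, γ' x ∈ Gamma0 N) ∧
        ∀ f, cocycle N w γ (CuspForm.heckeULin ((w : ℤ) + 2) hqN f)
          = ∑ x, polyAct w (α x) (cocycle N w (γ' x) f) := by
  intro q hqN hq γ hγ
  have : NeZero q := ⟨hq.ne_zero⟩
  obtain ⟨σ, γ', h1, h2⟩ := cocycle_heckeULin (w := w) hqN γ hγ
  exact ⟨ZMod q, inferInstance, γ', fun x => heckeMatZ q (σ x).val, h1, h2⟩

end hecke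

end

end Fermat.Agent.Lib.ES
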