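import Mathlib
import Fermat.Prelude.Def_ModularForm_HeckeOperator
import Fermat.Prelude.Def_ModularForm_HeckeOperatorForms
import Fermat.Prelude.Sol.S_ModularForm_heckeT_slash_eq_self_of_mem_Gamma0

set_option autoImplicit false

namespace Fermat.Agent.Lib.ES

open Matrix.SpecialLinearGroup UpperHalfPlane ModularForm
open P2MW.S_ModularForm_heckeT_slash_eq_self_of_mem_Gamma0.ModularForm.HeckeSlashInvariance
open scoped MatrixGroups OnePoint

/-- The integral matrix `[[1, j], [0, p]]`. -/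
def heckeMatZ (p j : ℕ) : Matrix (Fin 2) (Fin 2) ℤ := !![1, (j : ℤ); 0, (p : ℤ)]

/-- The integral matrix `[[p, 0], [0, 1]]`. -/
def heckeDiagZ (p : ℕ) : Matrix (Fin 2) (Fin 2) ℤ := !![(p : ℤ), 0; 0, 1]

/-- The integral coset representatives of `T_p`, indexed by the projective line over `ZMod p`. -/
def heckeRepZ (p : ℕ) (x : OnePoint (ZMod p)) : Matrix (Fin 2) (Fin 2) ℤ :=
  x.elim (heckeDiagZ p) (fun j => heckeMatZ p j.val)

theorem coe_heckeMatrix_eq_map {p : ℕ} (hp : p ≠ 0) (j : ℕ) :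
    ((heckeMatrix p j : GL (Fin 2) ℝ) : Matrix (Fin 2) (Fin 2) ℝ) =
      (heckeMatZ p j).map (Int.cast : ℤ → ℝ) := by
  rw [val_heckeMatrix hp]
  ext a b
  fin_cases a <;> fin_cases b <;> simp [heckeMatZ]

theorem coe_heckeDiagMatrix_eq_map {p : ℕ} (hp : p ≠ 0) :
    ((heckeDiagMatrix p : GL (Fin 2) ℝ) : Matrix (Fin 2) (Fin 2) ℝ) =
      (heckeDiagZ p).map (Int.cast : ℤ → ℝ) := by
  rw [val_heckeDiagMatrix hp]
  ext a b
  fin_cases a <;> fin_cases b <;> simp [heckeDiagZ]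

theorem coe_heckeRep_eq_map {p : ℕ} (hp : p ≠ 0) (x : OnePoint (ZMod p)) :
    ((heckeRep p x : GL (Fin 2) ℝ) : Matrix (Fin 2) (Fin 2) ℝ) =
      (heckeRepZ p x).map (Int.cast : ℤ → ℝ) := by
  induction x using OnePoint.rec with
  | infty => exact coe_heckeDiagMatrix_eq_map hp
  | coe j => exact coe_heckeMatrix_eq_map hp j.val

theorem coe_mapGL_eq_map (g : SL(2, ℤ)) :
    ((mapGL ℝ g : GL (Fin 2) ℝ) : Matrix (Fin 2) (Fin 2) ℝ) =
      (g : Matrix (Fin 2) (Fin 2) ℤ).map (Int.cast : ℤ → ℝ) := by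
  ext a b
  simp

theorem det_heckeMatZ (p j : ℕ) : (heckeMatZ p j).det = p := by
  simp [heckeMatZ, Matrix.det_fin_two_of]

theorem det_heckeDiagZ (p : ℕ) : (heckeDiagZ p).det = p := by
  simp [heckeDiagZ, Matrix.det_fin_two_of]

theorem det_heckeRepZ (p : ℕ) (x : OnePoint (ZMod p)) : (heckeRepZ p x).det = p := by
  induction x using OnePoint.rec with
  | infty => exact det_heckeDiagZ p
  | coe j => exact det_heckeMatZ p j.val

theorem heckeMatZ_apply_one_zero (p j : ℕ) : heckeMatZ p j 1 0 = 0 := by simp [heckeMatZ]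

theorem heckeDiagZ_apply_one_zero (p : ℕ) : heckeDiagZ p 1 0 = 0 := by simp [heckeDiagZ]

theorem heckeRepZ_apply_one_zero (p : ℕ) (x : OnePoint (ZMod p)) : heckeRepZ p x 1 0 = 0 := by
  induction x using OnePoint.rec with
  | infty => exact heckeDiagZ_apply_one_zero p
  | coe j => exact heckeMatZ_apply_one_zero p j.val

/-- Injectivity of the entrywise cast `ℤ → ℝ` on matrices. -/
theorem map_intCast_injective :
    Function.Injective (fun M : Matrix (Fin 2) (Fin 2) ℤ => M.map (Int.cast : ℤ → ℝ)) := by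
  intro A B h
  ext a b
  have := congrFun (congrFun h a) b
  simpa using this

/-- Integral form of the coset permutation for `T_p`, `p ∤ N`: for `g ∈ Γ₀(N)` and `x ∈ ℙ¹(𝔽_p)`
there is `g' ∈ Γ₀(N)` with `α_x g = g' α_{g·x}` as integral matrices. -/
theorem heckeRepZ_mul {p : ℕ} [Fact p.Prime] {N : ℕ} (hpN : ¬ p ∣ N) (g : SL(2, ℤ))
    (hg : g ∈ CongruenceSubgroup.Gamma0 N) (x : OnePoint (ZMod p)) :
    ∃ g' : SL(2, ℤ), g' ∈ CongruenceSubgroup.Gamma0 N ∧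
      heckeRepZ p x * (g : Matrix (Fin 2) (Fin 2) ℤ) =
        (g' : Matrix (Fin 2) (Fin 2) ℤ) * heckeRepZ p (redMatrix p g • x) := by
  have hp : p ≠ 0 := (Fact.out : p.Prime).ne_zero
  have hcN : (N : ℤ) ∣ g 1 0 :=
    (ZMod.intCast_zmod_eq_zero_iff_dvd _ _).mp (CongruenceSubgroup.Gamma0_mem.mp hg)
  obtain ⟨g', hg', hmul⟩ := heckeRep_mul hpN g hcN x
  refine ⟨g', CongruenceSubgroup.Gamma0_mem.mpr
    ((ZMod.intCast_zmod_eq_zero_iff_dvd _ _).mpr hg'), ?_⟩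
  apply map_intCast_injective
  have h2 := congrArg (fun M : GL (Fin 2) ℝ => (M : Matrix (Fin 2) (Fin 2) ℝ)) hmul
  simp only [Units.val_mul, coe_heckeRep_eq_map hp, coe_mapGL_eq_map] at h2
  simpa only [Matrix.map_mul_intCast] using h2

/-- Integral form of the coset permutation for `U_p`, `p ∣ N`. -/
theorem heckeMatZ_mul {p : ℕ} [NeZero p] {N : ℕ} (hpN : p ∣ N) (g : SL(2, ℤ))
    (hg : g ∈ CongruenceSubgroup.Gamma0 N) (x : ZMod p) :
    ∃ (hc : ((g 1 0 : ℤ) : ZMod p) = 0) (g' : SL(2, ℤ)), g' ∈ CongruenceSubgroup.Gamma0 N ∧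
      heckeMatZ p x.val * (g : Matrix (Fin 2) (Fin 2) ℤ) =
        (g' : Matrix (Fin 2) (Fin 2) ℤ) * heckeMatZ p (affinePerm g hc x).val := by
  have hp : p ≠ 0 := NeZero.ne p
  have hcN : (N : ℤ) ∣ g 1 0 :=
    (ZMod.intCast_zmod_eq_zero_iff_dvd _ _).mp (CongruenceSubgroup.Gamma0_mem.mp hg)
  have hc : (p : ℤ) ∣ g 1 0 := (Int.natCast_dvd_natCast.mpr hpN).trans hcN
  obtain ⟨g', hg', hmul⟩ := heckeMatrix_mul_of_dvd g hc x
  refine ⟨(ZMod.intCast_zmod_eq_zero_iff_dvd _ _).mpr hc, g', ?_, ?_⟩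
  · rw [CongruenceSubgroup.Gamma0_mem, hg']
    push_cast
    rw [CongruenceSubgroup.Gamma0_mem.mp hg, mul_zero]
  · apply map_intCast_injective
    have h2 := congrArg (fun M : GL (Fin 2) ℝ => (M : Matrix (Fin 2) (Fin 2) ℝ)) hmul
    simp only [Units.val_mul, coe_heckeMatrix_eq_map hp, coe_mapGL_eq_map] at h2
    simpa only [Matrix.map_mul_intCast] using h2

/-- Any element of `GL₂(ℝ)` whose matrix is the real image of `heckeRepZ p x` is `heckeRep p x`. -/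
theorem eq_heckeRep_of_coe_eq {p : ℕ} (hp : p ≠ 0) (x : OnePoint (ZMod p)) (A : GL (Fin 2) ℝ)
    (hA : (A : Matrix (Fin 2) (Fin 2) ℝ) = (heckeRepZ p x).map (Int.cast : ℤ → ℝ)) :
    A = heckeRep p x :=
  Units.ext (hA.trans (coe_heckeRep_eq_map hp x).symm)

/-- Any element of `GL₂(ℝ)` whose matrix is the real image of `heckeMatZ p j` is
`heckeMatrix p j`. -/
theorem eq_heckeMatrix_of_coe_eq {p : ℕ} (hp : p ≠ 0) (j : ℕ) (A : GL (Fin 2) ℝ)
    (hA : (A : Matrix (Fin 2) (Fin 2) ℝ) = (heckeMatZ p j).map (Int.cast : ℤ → ℝ)) :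
    A = heckeMatrix p j :=
  Units.ext (hA.trans (coe_heckeMatrix_eq_map hp j).symm)

/-- `T_p f` as a sum of slashes over the projective line. -/
theorem coe_heckeTLin_eq_sum {N : ℕ} (k : ℤ) {p : ℕ} [NeZero p] (hp : p.Prime) (hpN : ¬ p ∣ N)
    (f : CuspForm (CongruenceSubgroup.Gamma0 N) k) :
    ⇑(CuspForm.heckeTLin k hp hpN f) = ∑ x : OnePoint (ZMod p), ⇑f ∣[k] heckeRep p x := by
  rw [CuspForm.coe_heckeTLin_apply, heckeT_eq_sum_onePoint]

/-- `U_p f` as a sum of slashes over `ZMod p`. -/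
theorem coe_heckeULin_eq_sum {N : ℕ} [NeZero N] (k : ℤ) {p : ℕ} [NeZero p] (hpN : p ∣ N)
    (f : CuspForm (CongruenceSubgroup.Gamma0 N) k) :
    ⇑(CuspForm.heckeULin k hpN f) = ∑ x : ZMod p, ⇑f ∣[k] heckeMatrix p x.val := by
  rw [CuspForm.coe_heckeULin_apply, heckeU_eq_sum_zmod]

end Fermat.Agent.Lib.ES
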