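import Mathlib
import Fermat.Prelude.Thm_ModularForm_sturm_bound_Gamma0
import Fermat.Prelude.Thm_Subgroup_IsArithmetic_exists_nat_mem_strictPeriods_conj
import Fermat.Prelude.Thm_CongruenceSubgroup_one_mem_strictPeriods_Gamma0

set_option autoImplicit false

/-!
# No nonzero invariant functions of negative weight

A holomorphic function `G` on the upper half plane which is invariant of weight `-w` (`w ≥ 0`)
under `Γ₀(N)`, decays exponentially at `i∞` and has at most polynomial growth near the real axis,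
vanishes identically.  (Multiply a power of `G` by a power of `Δ` to get a modular form of weight
`12` vanishing to high order at `∞`, and apply the Sturm bound.)
-/

namespace Fermat.Agent.Lib.ES

open UpperHalfPlane Complex
open scoped Manifold MatrixGroups ModularForm Pointwise

section General

/-- A function on the upper half plane which is periodic and bounded on a vertical strip (high
enough) is bounded at `i∞`. -/
theorem isBoundedAtImInfty_of_periodic_of_strip {F : ℍ → ℂ} {P : ℝ} (hP : 0 < P)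
    (hper : Function.Periodic (F ∘ ofComplex) (P : ℂ))
    (hstrip : ∃ C Y : ℝ, ∀ z : ℍ, |z.re| ≤ P → Y ≤ z.im → ‖F z‖ ≤ C) :
    IsBoundedAtImInfty F := by
  obtain ⟨C, Y, hCY⟩ := hstrip
  rw [isBoundedAtImInfty_iff]
  refine ⟨C, Y, fun z hz => ?_⟩
  set n : ℤ := ⌊z.re / P⌋ with hn
  set z' : ℍ := ((-(n : ℝ) * P : ℝ)) +ᵥ z with hz'
  have him : z'.im = z.im := by rw [hz', vadd_im]
  have hre : z'.re = z.re - n * P := by
    rw [hz', vadd_re]; ring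
  have h1 : (n : ℝ) ≤ z.re / P := Int.floor_le _
  have h2 : z.re / P < n + 1 := Int.lt_floor_add_one _
  have hre0 : 0 ≤ z'.re := by
    rw [hre]
    have := (le_div_iff₀ hP).mp h1
    linarith
  have hre1 : z'.re ≤ P := by
    rw [hre]
    have := (div_lt_iff₀ hP).mp h2
    linarith
  have hFz : F z' = F z := by
    have h3 : (F ∘ ofComplex) ((z : ℂ) - (n : ℂ) * (P : ℂ)) = (F ∘ ofComplex) (z : ℂ) :=
      hper.sub_int_mul_eq n
    have h4 : ((z : ℂ) - (n : ℂ) * (P : ℂ)) = ((z' : ℍ) : ℂ) := by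
      rw [hz', coe_vadd]; push_cast; ring
    rw [h4] at h3
    simpa [Function.comp, ofComplex_apply] using h3
  rw [← hFz]
  refine hCY z' ?_ (him ▸ hz)
  rw [abs_of_nonneg hre0]
  exact hre1

/-- `y ^ B * exp (-y) ≤ B!` for `y ≥ 0`. -/
theorem pow_mul_exp_neg_le_factorial (B : ℕ) {y : ℝ} (hy : 0 ≤ y) :
    y ^ B * Real.exp (-y) ≤ B.factorial := by
  have h := Real.pow_div_factorial_le_exp y hy B
  have hpos : (0 : ℝ) < B.factorial := by exact_mod_cast B.factorial_pos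
  rw [div_le_iff₀ hpos] at h
  rw [Real.exp_neg]
  rw [← div_eq_mul_inv, div_le_iff₀ (Real.exp_pos y)]
  linarith [mul_comm (Real.exp y) (B.factorial : ℝ)]

end General

local notation "Δ" => ModularForm.discriminant

/-- Combined growth bound. -/
theorem exists_growth_bound {G : ℍ → ℂ}
    (hgrowth : ∃ (C : ℝ) (A : ℕ), ∀ z : ℍ, z.im ≤ 1 → ‖G z‖ ≤ C / z.im ^ A)
    (hdecay : ∃ C : ℝ, ∀ z : ℍ, 1 ≤ z.im → ‖G z‖ ≤ C * Real.exp (-2 * Real.pi * z.im)) :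
    ∃ (C : ℝ) (A : ℕ), 0 ≤ C ∧ ∀ z : ℍ, ‖G z‖ ≤ C * (1 + (z.im)⁻¹) ^ A := by
  obtain ⟨C₁, A, h₁⟩ := hgrowth
  obtain ⟨C₂, h₂⟩ := hdecay
  refine ⟨max (max C₁ C₂) 0, A, le_max_right _ _, fun z => ?_⟩
  set C := max (max C₁ C₂) 0 with hC
  have hC0 : 0 ≤ C := le_max_right _ _
  have hC1 : C₁ ≤ C := (le_max_left _ _).trans (le_max_left _ _)
  have hC2 : C₂ ≤ C := (le_max_right _ _).trans (le_max_left _ _)
  have him : 0 < z.im := z.im_pos
  have hinv : 0 < (z.im)⁻¹ := inv_pos.mpr him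
  have hone : (1 : ℝ) ≤ (1 + (z.im)⁻¹) ^ A := one_le_pow₀ (by linarith)
  rcases le_total z.im 1 with h | h
  · calc ‖G z‖ ≤ C₁ / z.im ^ A := h₁ z h
      _ ≤ C / z.im ^ A := by gcongr
      _ = C * ((z.im)⁻¹) ^ A := by rw [inv_pow, div_eq_mul_inv]
      _ ≤ C * (1 + (z.im)⁻¹) ^ A := by
          gcongr
          linarith
  · have hexp : Real.exp (-2 * Real.pi * z.im) ≤ 1 := by
      rw [Real.exp_le_one_iff]
      have := Real.pi_pos
      nlinarith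
    calc ‖G z‖ ≤ C₂ * Real.exp (-2 * Real.pi * z.im) := h₂ z h
      _ ≤ C * Real.exp (-2 * Real.pi * z.im) := by gcongr
      _ ≤ C * 1 := by gcongr
      _ ≤ C * (1 + (z.im)⁻¹) ^ A := by gcongr

/-- Polynomial growth of `G ∣[-w] γ` on vertical strips. -/
theorem exists_strip_bound {G : ℍ → ℂ} {C : ℝ} {A : ℕ} (hC : 0 ≤ C)
    (hG : ∀ z : ℍ, ‖G z‖ ≤ C * (1 + (z.im)⁻¹) ^ A) (w : ℕ) (γ : SL(2, ℤ)) (P : ℝ) (hP : 0 ≤ P) :
    ∃ C' : ℝ, 0 ≤ C' ∧ ∀ z : ℍ, |z.re| ≤ P → 1 ≤ z.im →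
      ‖(((γ 1 0 : ℤ) : ℂ) * (z : ℂ) + ((γ 1 1 : ℤ) : ℂ)) ^ w * G (γ • z)‖ ≤ C' * z.im ^ (w + A) := by
  set c : ℝ := |((γ 1 0 : ℤ) : ℝ)| with hc
  set d : ℝ := |((γ 1 1 : ℤ) : ℝ)| with hd
  set D : ℝ := c * (P + 1) + d with hD
  have hc0 : 0 ≤ c := abs_nonneg _
  have hd0 : 0 ≤ d := abs_nonneg _
  have hD0 : 0 ≤ D := by positivity
  refine ⟨D ^ w * (C * (1 + D ^ 2) ^ A), by positivity, fun z hre him => ?_⟩
  have hy : 0 < z.im := z.im_pos
  set q : ℂ := ((γ 1 0 : ℤ) : ℂ) * (z : ℂ) + ((γ 1 1 : ℤ) : ℂ) with hq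
  have hq_eq : denom (Matrix.SpecialLinearGroup.toGL ((Matrix.SpecialLinearGroup.map (Int.castRingHom ℝ)) γ)) ↑z = q :=
    ModularGroup.denom_apply γ z
  have hqne : q ≠ 0 := by
    rw [← hq_eq]; exact denom_ne_zero _ z
  -- bound on ‖q‖
  have hznorm : ‖(z : ℂ)‖ ≤ |z.re| + z.im := by
    have := Complex.norm_le_abs_re_add_abs_im (z : ℂ)
    simpa [abs_of_pos hy] using this
  have hq_le : ‖q‖ ≤ D * z.im := by
    calc ‖q‖ ≤ ‖((γ 1 0 : ℤ) : ℂ) * (z : ℂ)‖ + ‖((γ 1 1 : ℤ) : ℂ)‖ := norm_add_le _ _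
      _ = c * ‖(z : ℂ)‖ + d := by
          rw [norm_mul, hc, hd]
          congr 1
          · congr 1
            rw [← Complex.ofReal_intCast, Complex.norm_real, Real.norm_eq_abs]
          · rw [← Complex.ofReal_intCast, Complex.norm_real, Real.norm_eq_abs]
      _ ≤ c * (P + z.im) + d := by gcongr; linarith
      _ ≤ c * ((P + 1) * z.im) + d * z.im := by
          have h1 : P + z.im ≤ (P + 1) * z.im := by nlinarith
          have h2 : d ≤ d * z.im := le_mul_of_one_le_right hd0 him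
          gcongr
      _ = D * z.im := by rw [hD]; ring
  have hqpos : 0 < ‖q‖ := norm_pos_iff.mpr hqne
  -- imaginary part of γ • z
  have him' : (γ • z).im = z.im / ‖q‖ ^ 2 := by
    rw [ModularGroup.im_smul_eq_div_normSq, hq_eq, Complex.normSq_eq_norm_sq]
  have hinv_le : ((γ • z).im)⁻¹ ≤ D ^ 2 * z.im := by
    rw [him', inv_div, div_le_iff₀ hy]
    calc ‖q‖ ^ 2 ≤ (D * z.im) ^ 2 := by gcongr
      _ = D ^ 2 * z.im * z.im := by ring
  have hGb : ‖G (γ • z)‖ ≤ C * ((1 + D ^ 2) * z.im) ^ A := by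
    refine (hG (γ • z)).trans ?_
    gcongr
    calc 1 + ((γ • z).im)⁻¹ ≤ 1 + D ^ 2 * z.im := by linarith
      _ ≤ z.im + D ^ 2 * z.im := by linarith
      _ = (1 + D ^ 2) * z.im := by ring
  calc ‖q ^ w * G (γ • z)‖ = ‖q‖ ^ w * ‖G (γ • z)‖ := by rw [norm_mul, norm_pow]
    _ ≤ (D * z.im) ^ w * (C * ((1 + D ^ 2) * z.im) ^ A) := by gcongr
    _ = D ^ w * (C * (1 + D ^ 2) ^ A) * z.im ^ (w + A) := by
        rw [mul_pow, mul_pow, pow_add]; ring

theorem discriminant_smul (γ : SL(2, ℤ)) (z : ℍ) :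
    Δ (γ • z) = Δ z * (((γ 1 0 : ℤ) : ℂ) * (z : ℂ) + ((γ 1 1 : ℤ) : ℂ)) ^ 12 := by
  have h1 : (⇑CuspForm.discriminant ∣[(12 : ℤ)] γ) = ⇑CuspForm.discriminant :=
    SlashInvariantFormClass.slash_action_eq CuspForm.discriminant _ ⟨γ, rfl⟩
  have h2 := congrFun h1 z
  rw [ModularForm.SL_slash_apply, ModularGroup.denom_apply] at h2
  have hq : (((γ 1 0 : ℤ) : ℂ) * (z : ℂ) + ((γ 1 1 : ℤ) : ℂ)) ≠ 0 := by
    rw [← ModularGroup.denom_apply]; exact denom_ne_zero _ z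
  simp only [CuspForm.coe_discriminant] at h2
  rw [← h2, zpow_neg, mul_assoc]
  rw [show ((12 : ℤ)) = ((12 : ℕ) : ℤ) by rfl, zpow_natCast, inv_mul_cancel₀ (pow_ne_zero _ hq), mul_one]

/-- The slash formula for `G ^ (12 * i) * Δ ^ (1 + w * i)`. -/
theorem slash_pow_mul_discriminant_pow (G : ℍ → ℂ) (w i : ℕ) (γ : SL(2, ℤ)) (z : ℍ) :
    ((fun τ => G τ ^ (12 * i) * Δ τ ^ (1 + w * i)) ∣[(12 : ℤ)] γ) z =
      ((((γ 1 0 : ℤ) : ℂ) * (z : ℂ) + ((γ 1 1 : ℤ) : ℂ)) ^ w * G (γ • z)) ^ (12 * i) *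
        Δ z ^ (1 + w * i) := by
  rw [ModularForm.SL_slash_apply, ModularGroup.denom_apply, discriminant_smul]
  set q : ℂ := ((γ 1 0 : ℤ) : ℂ) * (z : ℂ) + ((γ 1 1 : ℤ) : ℂ) with hq
  have hqne : q ≠ 0 := by
    rw [hq, ← ModularGroup.denom_apply]; exact denom_ne_zero _ z
  rw [zpow_neg, show ((12 : ℤ)) = ((12 : ℕ) : ℤ) by rfl, zpow_natCast]
  field_simp
  ring_nf

/-- Exponential decay of `Δ`. -/
theorem exists_discriminant_bound :
    ∃ C Y : ℝ, 0 ≤ C ∧ ∀ z : ℍ, Y ≤ z.im → ‖Δ z‖ ≤ C * Real.exp (-2 * Real.pi * z.im) := by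
  have h := CuspFormClass.exp_decay_atImInfty (h := 1) CuspForm.discriminant one_pos
    one_mem_strictPeriods_SL
  obtain ⟨C, hC0, hC⟩ := h.exists_pos
  rw [Asymptotics.IsBigOWith, atImInfty, Filter.eventually_comap, Filter.eventually_atTop] at hC
  obtain ⟨Y, hY⟩ := hC
  refine ⟨C, Y, hC0.le, fun z hz => ?_⟩
  have := hY z.im hz z rfl
  simpa [Real.norm_of_nonneg (Real.exp_pos _).le] using this

/-- `G ^ (12 i) Δ ^ (1 + w i)` as a slash invariant form. -/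
noncomputable def auxSIF (N : ℕ) (w : ℕ) (G : ℍ → ℂ)
    (hinv : ∀ γ ∈ CongruenceSubgroup.Gamma0 N, ∀ z : ℍ,
      (((γ 1 0 : ℤ) : ℂ) * (z : ℂ) + ((γ 1 1 : ℤ) : ℂ)) ^ w * G (γ • z) = G z) (i : ℕ) :
    SlashInvariantForm (CongruenceSubgroup.Gamma0 N : Subgroup (GL (Fin 2) ℝ)) 12 where
  toFun := fun τ => G τ ^ (12 * i) * Δ τ ^ (1 + w * i)
  slash_action_eq' := by
    intro γ hγ
    obtain ⟨γ', hγ', rfl⟩ := Subgroup.mem_map.mp hγ
    ext z
    have h1 := slash_pow_mul_discriminant_pow G w i γ' z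
    rw [hinv γ' hγ' z] at h1
    exact h1

theorem auxSIF_apply (N : ℕ) (w : ℕ) (G : ℍ → ℂ)
    (hinv : ∀ γ ∈ CongruenceSubgroup.Gamma0 N, ∀ z : ℍ,
      (((γ 1 0 : ℤ) : ℂ) * (z : ℂ) + ((γ 1 1 : ℤ) : ℂ)) ^ w * G (γ • z) = G z) (i : ℕ) (z : ℍ) :
    auxSIF N w G hinv i z = G z ^ (12 * i) * Δ z ^ (1 + w * i) := rfl

theorem isBoundedAtImInfty_auxSIF_slash (N : ℕ) [NeZero N] (w : ℕ) (G : ℍ → ℂ)
    (hinv : ∀ γ ∈ CongruenceSubgroup.Gamma0 N, ∀ z : ℍ,
      (((γ 1 0 : ℤ) : ℂ) * (z : ℂ) + ((γ 1 1 : ℤ) : ℂ)) ^ w * G (γ • z) = G z)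
    {C : ℝ} {A : ℕ} (hC : 0 ≤ C) (hG : ∀ z : ℍ, ‖G z‖ ≤ C * (1 + (z.im)⁻¹) ^ A)
    (i : ℕ) (γ : SL(2, ℤ)) :
    IsBoundedAtImInfty (⇑(auxSIF N w G hinv i) ∣[(12 : ℤ)] γ) := by
  obtain ⟨P, hP, hPmem⟩ := Subgroup.IsArithmetic.exists_nat_mem_strictPeriods_conj
    (CongruenceSubgroup.Gamma0 N : Subgroup (GL (Fin 2) ℝ))
  have hP' : (0 : ℝ) < P := by exact_mod_cast hP
  refine isBoundedAtImInfty_of_periodic_of_strip hP' ?_ ?_
  · -- periodicity
    have hmem : (P : ℝ) ∈ (ConjAct.toConjAct (Matrix.SpecialLinearGroup.mapGL ℝ γ)⁻¹ •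
        (CongruenceSubgroup.Gamma0 N : Subgroup (GL (Fin 2) ℝ))).strictPeriods := by
      have := hPmem γ⁻¹
      rwa [map_inv] at this
    have := SlashInvariantFormClass.periodic_comp_ofComplex
      (SlashInvariantForm.translate (auxSIF N w G hinv i) (Matrix.SpecialLinearGroup.mapGL ℝ γ)) hmem
    rw [SlashInvariantForm.coe_translate] at this
    exact this
  · -- strip bound
    obtain ⟨C', hC', hstrip⟩ := exists_strip_bound hC hG w γ P hP'.le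
    obtain ⟨CΔ, YΔ, hCΔ, hΔ⟩ := exists_discriminant_bound
    refine ⟨C' ^ (12 * i) * CΔ ^ (1 + w * i) * ((w + A) * (12 * i)).factorial, max 1 YΔ,
      fun z hre him => ?_⟩
    have h1 : 1 ≤ z.im := (le_max_left _ _).trans him
    have h2 : YΔ ≤ z.im := (le_max_right _ _).trans him
    have hy : 0 < z.im := z.im_pos
    have hslash : (⇑(auxSIF N w G hinv i) ∣[(12 : ℤ)] γ) z =
        ((((γ 1 0 : ℤ) : ℂ) * (z : ℂ) + ((γ 1 1 : ℤ) : ℂ)) ^ w * G (γ • z)) ^ (12 * i) *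
          Δ z ^ (1 + w * i) := slash_pow_mul_discriminant_pow G w i γ z
    rw [hslash, norm_mul, norm_pow, norm_pow]
    have hb1 := hstrip z hre h1
    have hb2 := hΔ z h2
    have hexp : Real.exp (-2 * Real.pi * z.im) ^ (1 + w * i) ≤ Real.exp (-z.im) := by
      rw [← Real.exp_nat_mul]
      apply Real.exp_le_exp.mpr
      have hpi : (1 : ℝ) ≤ 2 * Real.pi := by
        have := Real.pi_gt_three
        linarith
      have h3 : (1 : ℝ) ≤ ((1 + w * i : ℕ) : ℝ) := by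
        exact_mod_cast Nat.le_add_right 1 (w * i)
      have h4 : z.im ≤ ((1 + w * i : ℕ) : ℝ) * (2 * Real.pi * z.im) := by
        have : z.im ≤ 2 * Real.pi * z.im := by nlinarith
        calc z.im ≤ 2 * Real.pi * z.im := this
          _ = 1 * (2 * Real.pi * z.im) := (one_mul _).symm
          _ ≤ ((1 + w * i : ℕ) : ℝ) * (2 * Real.pi * z.im) := by
              apply mul_le_mul_of_nonneg_right h3
              positivity
      linarith
    calc ‖(((γ 1 0 : ℤ) : ℂ) * (z : ℂ) + ((γ 1 1 : ℤ) : ℂ)) ^ w * G (γ • z)‖ ^ (12 * i) *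
          ‖Δ z‖ ^ (1 + w * i)
        ≤ (C' * z.im ^ (w + A)) ^ (12 * i) *
          (CΔ * Real.exp (-2 * Real.pi * z.im)) ^ (1 + w * i) := by gcongr
      _ = C' ^ (12 * i) * CΔ ^ (1 + w * i) * (z.im ^ ((w + A) * (12 * i)) *
          Real.exp (-2 * Real.pi * z.im) ^ (1 + w * i)) := by
          rw [mul_pow, mul_pow, ← pow_mul]; ring
      _ ≤ C' ^ (12 * i) * CΔ ^ (1 + w * i) * (z.im ^ ((w + A) * (12 * i)) *
          Real.exp (-z.im)) := by gcongr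
      _ ≤ C' ^ (12 * i) * CΔ ^ (1 + w * i) * ((w + A) * (12 * i)).factorial := by
          gcongr
          exact pow_mul_exp_neg_le_factorial _ hy.le

/-- `G ^ (12 i) Δ ^ (1 + w i)` as a modular form of weight `12`. -/
noncomputable def auxMF (N : ℕ) [NeZero N] (w : ℕ) (G : ℍ → ℂ)
    (hol : MDifferentiable 𝓘(ℂ) 𝓘(ℂ) G)
    (hinv : ∀ γ ∈ CongruenceSubgroup.Gamma0 N, ∀ z : ℍ,
      (((γ 1 0 : ℤ) : ℂ) * (z : ℂ) + ((γ 1 1 : ℤ) : ℂ)) ^ w * G (γ • z) = G z)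
    {C : ℝ} {A : ℕ} (hC : 0 ≤ C) (hG : ∀ z : ℍ, ‖G z‖ ≤ C * (1 + (z.im)⁻¹) ^ A) (i : ℕ) :
    ModularForm (CongruenceSubgroup.Gamma0 N : Subgroup (GL (Fin 2) ℝ)) 12 where
  toSlashInvariantForm := auxSIF N w G hinv i
  holo' := (hol.pow (12 * i)).mul ((CuspFormClass.holo CuspForm.discriminant).pow (1 + w * i))
  bdd_at_cusps' := fun {c} hc => by
    rw [Subgroup.IsArithmetic.isCusp_iff_isCusp_SL2Z] at hc
    rw [OnePoint.isBoundedAt_iff_forall_SL2Z hc]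
    intro γ _
    exact isBoundedAtImInfty_auxSIF_slash N w G hinv hC hG i γ

theorem auxMF_apply (N : ℕ) [NeZero N] (w : ℕ) (G : ℍ → ℂ)
    (hol : MDifferentiable 𝓘(ℂ) 𝓘(ℂ) G)
    (hinv : ∀ γ ∈ CongruenceSubgroup.Gamma0 N, ∀ z : ℍ,
      (((γ 1 0 : ℤ) : ℂ) * (z : ℂ) + ((γ 1 1 : ℤ) : ℂ)) ^ w * G (γ • z) = G z)
    {C : ℝ} {A : ℕ} (hC : 0 ≤ C) (hG : ∀ z : ℍ, ‖G z‖ ≤ C * (1 + (z.im)⁻¹) ^ A) (i : ℕ) (z : ℍ) :
    auxMF N w G hol hinv hC hG i z = G z ^ (12 * i) * Δ z ^ (1 + w * i) := rfl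

/-- The `q`-expansion of `G ^ (12 i) Δ ^ (1 + w i)` vanishes to order `12 i + 1 + w i`. -/
theorem qExpansion_coeff_auxMF (N : ℕ) [NeZero N] (w : ℕ) (G : ℍ → ℂ)
    (hol : MDifferentiable 𝓘(ℂ) 𝓘(ℂ) G)
    (hinv : ∀ γ ∈ CongruenceSubgroup.Gamma0 N, ∀ z : ℍ,
      (((γ 1 0 : ℤ) : ℂ) * (z : ℂ) + ((γ 1 1 : ℤ) : ℂ)) ^ w * G (γ • z) = G z)
    {C : ℝ} {A : ℕ} (hC : 0 ≤ C) (hG : ∀ z : ℍ, ‖G z‖ ≤ C * (1 + (z.im)⁻¹) ^ A)
    {C₂ : ℝ} (hC₂ : 0 ≤ C₂)
    (hdecay : ∀ z : ℍ, 1 ≤ z.im → ‖G z‖ ≤ C₂ * Real.exp (-2 * Real.pi * z.im))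
    (i n : ℕ) (hn : n < 12 * i + (1 + w * i)) :
    (qExpansion 1 (auxMF N w G hol hinv hC hG i)).coeff n = 0 := by
  obtain ⟨CΔ, YΔ, hCΔ, hΔ⟩ := exists_discriminant_bound
  set K : ℝ := C₂ ^ (12 * i) * CΔ ^ (1 + w * i) with hK
  have hK0 : 0 ≤ K := by positivity
  -- the bound for large `t`
  have hbound : ∀ t : ℝ, max 1 YΔ ≤ t →
      ‖(qExpansion 1 (auxMF N w G hol hinv hC hG i)).coeff n‖ ≤ K * Real.exp (-2 * Real.pi * t) := by
    intro t ht
    have h1 : 1 ≤ t := (le_max_left _ _).trans ht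
    have h2 : YΔ ≤ t := (le_max_right _ _).trans ht
    have ht0 : 0 < t := by linarith
    rw [ModularFormClass.qExpansion_coeff_eq_intervalIntegral (auxMF N w G hol hinv hC hG i) one_pos
      (CongruenceSubgroup.one_mem_strictPeriods_Gamma0 N) n ht0]
    set r : ℝ := Real.exp (-2 * Real.pi * t) with hr
    have hr0 : 0 < r := Real.exp_pos _
    have hr1 : r ≤ 1 := by
      rw [hr, Real.exp_le_one_iff]
      have := Real.pi_pos
      nlinarith
    have hint : ∀ u ∈ Set.uIoc (0 : ℝ) 1,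
        ‖1 / Function.Periodic.qParam 1 (↑u + ↑t * Complex.I) ^ n *
          (auxMF N w G hol hinv hC hG i) ⟨↑u + ↑t * Complex.I, by simpa using ht0⟩‖ ≤ K * r := by
      intro u _
      set z : ℍ := ⟨↑u + ↑t * Complex.I, by simpa using ht0⟩ with hz
      have hzim : z.im = t := by simp [hz, UpperHalfPlane.im]
      have hq : ‖Function.Periodic.qParam 1 (↑u + ↑t * Complex.I)‖ = r := by
        rw [Function.Periodic.norm_qParam]
        simp [hr]
      rw [auxMF_apply, norm_mul, norm_div, norm_one, norm_pow, hq, norm_mul, norm_pow, norm_pow]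
      have hb1 : ‖G z‖ ≤ C₂ * r := by
        have := hdecay z (hzim ▸ h1)
        rwa [hzim] at this
      have hb2 : ‖Δ z‖ ≤ CΔ * r := by
        have := hΔ z (hzim ▸ h2)
        rwa [hzim] at this
      calc 1 / r ^ n * (‖G z‖ ^ (12 * i) * ‖Δ z‖ ^ (1 + w * i))
          ≤ 1 / r ^ n * ((C₂ * r) ^ (12 * i) * (CΔ * r) ^ (1 + w * i)) := by gcongr
        _ = K * (r ^ (12 * i + (1 + w * i)) / r ^ n) := by
            rw [hK, mul_pow, mul_pow, pow_add]; ring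
        _ = K * r ^ (12 * i + (1 + w * i) - n) := by
            rw [pow_sub₀ _ hr0.ne' hn.le, div_eq_mul_inv]
        _ ≤ K * r ^ 1 := by
            gcongr ?_ * ?_
            apply pow_le_pow_of_le_one hr0.le hr1
            omega
        _ = K * r := by rw [pow_one]
    have := intervalIntegral.norm_integral_le_of_norm_le_const hint
    rw [norm_mul]
    simp only [Complex.ofReal_one, div_one, norm_one, one_mul] at this ⊢
    simpa using this
  -- conclude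
  have hlim : Filter.Tendsto (fun t : ℝ => K * Real.exp (-2 * Real.pi * t)) Filter.atTop (nhds 0) := by
    have h1 : Filter.Tendsto (fun t : ℝ => 2 * Real.pi * t) Filter.atTop Filter.atTop :=
      Filter.Tendsto.const_mul_atTop (by positivity) Filter.tendsto_id
    have h2 := Real.tendsto_exp_neg_atTop_nhds_zero.comp h1
    have h3 := h2.const_mul K
    simp only [mul_zero] at h3
    refine h3.congr fun t => ?_
    simp only [Function.comp]
    congr 2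
    ring
  have hle : ‖(qExpansion 1 (auxMF N w G hol hinv hC hG i)).coeff n‖ ≤ 0 := by
    refine ge_of_tendsto hlim ?_
    filter_upwards [Filter.eventually_ge_atTop (max 1 YΔ)] with t ht
    exact hbound t ht
  exact norm_le_zero_iff.mp hle


/-- **No nonzero invariant functions of negative weight.** -/
theorem eq_zero_of_neg_weight_invariant (N : ℕ) [NeZero N] (w : ℕ) (G : ℍ → ℂ)
    (hol : MDifferentiable 𝓘(ℂ) 𝓘(ℂ) G)
    (hinv : ∀ γ ∈ CongruenceSubgroup.Gamma0 N, ∀ z : ℍ,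
      (((γ 1 0 : ℤ) : ℂ) * (z : ℂ) + ((γ 1 1 : ℤ) : ℂ)) ^ w * G (γ • z) = G z)
    (hgrowth : ∃ (C : ℝ) (A : ℕ), ∀ z : ℍ, z.im ≤ 1 → ‖G z‖ ≤ C / z.im ^ A)
    (hdecay : ∃ C : ℝ, ∀ z : ℍ, 1 ≤ z.im → ‖G z‖ ≤ C * Real.exp (-2 * Real.pi * z.im)) :
    G = 0 := by
  obtain ⟨C, A, hC, hG⟩ := exists_growth_bound hgrowth hdecay
  obtain ⟨C₂, hC₂⟩ := hdecay
  have hdecay' : ∀ z : ℍ, 1 ≤ z.im → ‖G z‖ ≤ max C₂ 0 * Real.exp (-2 * Real.pi * z.im) := by
    intro z hz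
    refine (hC₂ z hz).trans ?_
    gcongr
    exact le_max_left _ _
  set i : ℕ := (CongruenceSubgroup.Gamma0 N).index with hi
  have hi0 : i ≠ 0 := Subgroup.FiniteIndex.index_ne_zero
  have hzero : auxMF N w G hol hinv hC hG i = 0 := by
    refine ModularForm.sturm_bound_Gamma0 N _ fun n hn => ?_
    refine qExpansion_coeff_auxMF N w G hol hinv hC hG (le_max_right _ _) hdecay' i n ?_
    have h12 : ((12 : ℤ) * ((CongruenceSubgroup.Gamma0 N).index : ℤ)).toNat = 12 * i := by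
      have : ((12 : ℤ) * ((CongruenceSubgroup.Gamma0 N).index : ℤ)) = ((12 * i : ℕ) : ℤ) := by
        push_cast; rfl
      rw [this, Int.toNat_natCast]
    rw [h12] at hn
    omega
  funext z
  have hz : auxMF N w G hol hinv hC hG i z = 0 := by rw [hzero]; rfl
  rw [auxMF_apply] at hz
  rcases mul_eq_zero.mp hz with h | h
  · exact pow_eq_zero_iff (by omega) |>.mp h
  · exact absurd (pow_eq_zero_iff (by omega) |>.mp h) (ModularForm.discriminant_ne_zero z)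

end Fermat.Agent.Lib.ES
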