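import Mathlib
import Fermat.Agent.Lib.ES.QSeries
import Fermat.Agent.Lib.ES.PolyAction
import Fermat.Agent.Lib.ES.Eichler
import Fermat.Agent.Lib.ES.NegWeight

set_option autoImplicit false

/-!
# Injectivity of the Eichler–Shimura cocycle: the core, for an abstract coefficient sequence

If the Eichler integral `eichE a w` of a `q`-series with polynomially bounded coefficients is
invariant under `Γ₀(N)` (i.e. all the Eichler–Shimura cocycles vanish), then the `q`-series
vanishes identically on the upper half plane.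
-/

namespace Fermat.Agent.Lib.ES

open UpperHalfPlane Complex Polynomial
open scoped Manifold MatrixGroups

/-- The Möbius transformation `mob` of an element of `SL(2, ℤ)` agrees with the action on `ℍ`. -/
theorem injCore_mob_eq_smul (γ : SL(2, ℤ)) (τ : ℍ) :
    mob (γ : Matrix (Fin 2) (Fin 2) ℤ) (τ : ℂ) = ((γ • τ : ℍ) : ℂ) := by
  rw [UpperHalfPlane.coe_specialLinearGroup_apply]
  simp [mob]

theorem injCore_mobDen_ne_zero (γ : SL(2, ℤ)) (τ : ℍ) :
    mobDen (γ : Matrix (Fin 2) (Fin 2) ℤ) (τ : ℂ) ≠ 0 := by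
  have h := denom_ne_zero (Matrix.SpecialLinearGroup.toGL
    ((Matrix.SpecialLinearGroup.map (Int.castRingHom ℝ)) γ)) τ
  rw [ModularGroup.denom_apply] at h
  simpa [mobDen] using h

/-- If `eichG a (s + 1)` vanishes on the upper half plane, so does `eichG a s`. -/
theorem eichG_eq_zero_of_succ {a : ℕ → ℂ} {C : ℝ} {A : ℕ} (h : CoeffBound a C A) (s : ℕ)
    (h0 : ∀ z : ℂ, 0 < z.im → eichG a (s + 1) z = 0) : ∀ z : ℂ, 0 < z.im → eichG a s z = 0 := by
  intro z hz
  have h1 := hasDerivAt_eichG h s hz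
  have hopen : IsOpen {z : ℂ | 0 < z.im} := isOpen_lt continuous_const Complex.continuous_im
  have h2 : eichG a (s + 1) =ᶠ[nhds z] fun _ => (0 : ℂ) := by
    filter_upwards [hopen.mem_nhds hz] with x hx
    exact h0 x hx
  have h3 : HasDerivAt (fun _ : ℂ => (0 : ℂ)) (eichG a s z) z := h1.congr_of_eventuallyEq h2.symm
  exact h3.unique (hasDerivAt_const z (0 : ℂ))

/-- **Injectivity core.** If the Eichler integral is `Γ₀(N)`-invariant, the `q`-series vanishes. -/
theorem eichG_zero_eq_zero_of_invariant (N : ℕ) [NeZero N] (w : ℕ) {a : ℕ → ℂ} {C : ℝ}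
    (h : CoeffBound a C (w + 1))
    (hinvE : ∀ γ ∈ CongruenceSubgroup.Gamma0 N, ∀ z : ℂ, 0 < z.im →
      polyAct w (γ : Matrix (Fin 2) (Fin 2) ℤ)
        (eichE a w (mob (γ : Matrix (Fin 2) (Fin 2) ℤ) z)) = eichE a w z) :
    ∀ z : ℂ, 0 < z.im → eichG a 0 z = 0 := by
  -- the deepest integral as a function on `ℍ`
  set G : ℍ → ℂ := fun τ => eichG a (w + 1) (τ : ℂ) with hG
  have hol : MDifferentiable 𝓘(ℂ) 𝓘(ℂ) G := by
    rw [UpperHalfPlane.mdifferentiable_iff]
    have hd : DifferentiableOn ℂ (eichG a (w + 1)) {z : ℂ | 0 < z.im} := fun z hz =>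
      (hasDerivAt_eichG h w hz).differentiableAt.differentiableWithinAt
    refine hd.congr fun z hz => ?_
    simp only [Function.comp, hG]
    rw [ofComplex_apply_of_im_pos hz]
  have hinv : ∀ γ ∈ CongruenceSubgroup.Gamma0 N, ∀ τ : ℍ,
      (((γ 1 0 : ℤ) : ℂ) * (τ : ℂ) + ((γ 1 1 : ℤ) : ℂ)) ^ w * G (γ • τ) = G τ := by
    intro γ hγ τ
    have h1 := hinvE γ hγ (τ : ℂ) τ.im_pos
    have h2 : (toPoly w (polyAct w (γ : Matrix (Fin 2) (Fin 2) ℤ)
        (eichE a w (mob (γ : Matrix (Fin 2) (Fin 2) ℤ) (τ : ℂ))))).eval (τ : ℂ) =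
        (toPoly w (eichE a w (τ : ℂ))).eval (τ : ℂ) := by rw [h1]
    rw [eval_toPoly_polyAct w _ _ (injCore_mobDen_ne_zero γ τ), eval_toPoly_eichE, eval_toPoly_eichE,
      injCore_mob_eq_smul] at h2
    have hfac : (w.factorial : ℂ) ≠ 0 := by exact_mod_cast w.factorial_ne_zero
    have h3 : (w.factorial : ℂ) * (mobDen (γ : Matrix (Fin 2) (Fin 2) ℤ) (τ : ℂ) ^ w *
        eichG a (w + 1) ((γ • τ : ℍ) : ℂ)) = (w.factorial : ℂ) * eichG a (w + 1) (τ : ℂ) := by
      linear_combination -h2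
    exact mul_left_cancel₀ hfac h3
  have hgrowth : ∃ (C' : ℝ) (A : ℕ), ∀ τ : ℍ, τ.im ≤ 1 → ‖G τ‖ ≤ C' / τ.im ^ A := by
    refine ⟨C / (2 * Real.pi), 1, fun τ _ => ?_⟩
    have := norm_eichG_le_inv h (le_refl (w + 1)) (z := (τ : ℂ)) τ.im_pos
    rw [pow_one, div_div]
    exact this
  have hdecay : ∃ C' : ℝ, ∀ τ : ℍ, 1 ≤ τ.im → ‖G τ‖ ≤ C' * Real.exp (-2 * Real.pi * τ.im) := by
    obtain ⟨C', -, hC'⟩ := norm_eichG_le_exp h
    refine ⟨C', fun τ hτ => ?_⟩
    have := hC' (w + 1) (τ : ℂ) hτ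
    rw [show -2 * Real.pi * τ.im = -(2 * Real.pi) * τ.im by ring]
    exact this
  have hG0 : G = 0 := eq_zero_of_neg_weight_invariant N w G hol hinv hgrowth hdecay
  -- descend
  have hall : ∀ s : ℕ, s ≤ w + 1 → ∀ z : ℂ, 0 < z.im → eichG a (w + 1 - s) z = 0 := by
    intro s
    induction s with
    | zero =>
      intro _ z hz
      have := congrFun hG0 ⟨z, hz⟩
      simpa [hG] using this
    | succ s ih =>
      intro hs z hz
      have h1 : w + 1 - s = (w + 1 - (s + 1)) + 1 := by omega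
      have h2 := ih (by omega)
      rw [h1] at h2
      exact eichG_eq_zero_of_succ h _ h2 z hz
  intro z hz
  have := hall (w + 1) le_rfl z hz
  simpa using this

end Fermat.Agent.Lib.ES
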