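import Fermat.Agent.Lib.ES.Cocycle
import Fermat.Agent.Lib.ES.InjectiveCore

/-!
# Injectivity of the Eichler–Shimura cocycle
-/

set_option autoImplicit false

namespace Fermat.Agent.Lib.ES

open UpperHalfPlane CongruenceSubgroup
open scoped MatrixGroups

/-- If all the Eichler–Shimura cocycles `cocycle N w γ f`, `γ ∈ Γ₀(N)`, of a cusp form vanish, then
the cusp form vanishes. -/
theorem eq_zero_of_forall_cocycle_eq_zero {N : ℕ} [NeZero N] {w : ℕ}
    (f : CuspForm (Gamma0 N) ((w : ℤ) + 2))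
    (h : ∀ γ ∈ Gamma0 N, cocycle N w γ f = 0) : f = 0 := by
  obtain ⟨C, hC⟩ := exists_coeffBound f
  have key := eichG_zero_eq_zero_of_invariant N w hC fun γ hγ z hz => by
    have := cocycle_eq hγ f hz
    rw [h γ hγ] at this
    exact sub_eq_zero.mp this
  refine DFunLike.ext _ _ fun τ => ?_
  rw [← eichG_zero_eq f τ, key (τ : ℂ) τ.im_pos]
  rfl

end Fermat.Agent.Lib.ES
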