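import Mathlib
import Fermat.Prelude.Def_CuspForm_HeckeAlgebra
import Fermat.Agent.Lib.Level.SmallLevel

set_option autoImplicit false

open UpperHalfPlane ModularForm
open scoped MatrixGroups

namespace Fermat.Agent.Lib.ES

/-- Cusp forms of weight `≤ 0` on `Γ₀(N)` vanish (Sturm bound). -/
theorem cuspForm_eq_zero_of_nonpos {N : ℕ} [NeZero N] {k : ℤ} (hk : k ≤ 0)
    (f : CuspForm (CongruenceSubgroup.Gamma0 N) k) : f = 0 := by
  apply Fermat.Agent.Lib.Level.cuspForm_eq_zero_of_sturm_eq_zero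
  have : k * ((CongruenceSubgroup.Gamma0 N).index : ℤ) ≤ 0 :=
    mul_nonpos_of_nonpos_of_nonneg hk (Int.natCast_nonneg _)
  rw [Int.toNat_of_nonpos this]

/-- Cusp forms of odd weight on `Γ₀(N)` vanish (as `-1 ∈ Γ₀(N)`). -/
theorem cuspForm_eq_zero_of_odd {N : ℕ} {k : ℤ} (hk : Odd k)
    (f : CuspForm (CongruenceSubgroup.Gamma0 N) k) : f = 0 := by
  have hmem : (-1 : SL(2, ℤ)) ∈ CongruenceSubgroup.Gamma0 N := by
    rw [CongruenceSubgroup.Gamma0_mem]
    simp
  have hmf : (ModularFormClass.modularForm f :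
      ModularForm (CongruenceSubgroup.Gamma0 N) k) = 0 := by
    apply ModularForm.eq_zero_of_neg_one_mem _ hk
    refine ⟨-1, hmem, ?_⟩
    ext i j
    fin_cases i <;> fin_cases j <;> simp [Matrix.SpecialLinearGroup.mapGL]
  have hcoe : (⇑f : ℍ → ℂ) = 0 := by
    have := congrArg (fun F : ModularForm (CongruenceSubgroup.Gamma0 N) k ↦ (⇑F : ℍ → ℂ)) hmf
    simpa using this
  exact DFunLike.ext _ _ fun z ↦ by simpa using congrFun hcoe z

/-- If the space of cusp forms is trivial, the Hecke algebra is (trivially) a finite module. -/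
theorem finite_heckeAlgebra_of_forall_eq_zero (N : ℕ) [NeZero N] (k : ℤ) (S : Set ℕ)
    (h : ∀ f : CuspForm (CongruenceSubgroup.Gamma0 N) k, f = 0) :
    Module.Finite ℤ (CuspForm.heckeAlgebra N k S) := by
  have : Subsingleton (CuspForm (CongruenceSubgroup.Gamma0 N) k) :=
    ⟨fun a b => by rw [h a, h b]⟩
  have : Subsingleton (Module.End ℂ (CuspForm (CongruenceSubgroup.Gamma0 N) k)) :=
    ⟨fun a b => LinearMap.ext fun x => Subsingleton.elim _ _⟩
  have : Subsingleton (CuspForm.heckeAlgebra N k S) :=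
    ⟨fun a b => Subtype.ext (Subsingleton.elim _ _)⟩
  exact Module.Finite.of_finite

/-- Reduction of S22 to the weights `k = w + 2`. -/
theorem finite_heckeAlgebra_of_main (N : ℕ) [NeZero N]
    (hmain : ∀ (w : ℕ) (S : Set ℕ), Module.Finite ℤ (CuspForm.heckeAlgebra N ((w : ℤ) + 2) S))
    (k : ℤ) (S : Set ℕ) : Module.Finite ℤ (CuspForm.heckeAlgebra N k S) := by
  rcases le_or_gt k 0 with hk | hk
  · exact finite_heckeAlgebra_of_forall_eq_zero N k S (cuspForm_eq_zero_of_nonpos hk)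
  rcases eq_or_lt_of_le (show (1 : ℤ) ≤ k by omega) with h1 | h1
  · exact finite_heckeAlgebra_of_forall_eq_zero N k S
      (cuspForm_eq_zero_of_odd (by rw [← h1]; exact odd_one))
  · obtain ⟨w, hw⟩ : ∃ w : ℕ, k = (w : ℤ) + 2 := ⟨(k - 2).toNat, by omega⟩
    subst hw
    exact hmain w S

end Fermat.Agent.Lib.ES
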